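/-
S25 / package SC0 (Layer 0: two-chart presentation of the curve).  Shared definitions.
Author: helper7345.  Definitions and small bookkeeping lemmas only; complete proofs.

Given `c : C ⟶ Spec k` we put on every `Γ(C, U)` the `k`-algebra structure induced by `c`
(`algOpen`), and we define `Presentation c ε`: two affine opens `W₁ ∋ ε`, `W₂` covering `C`,
functions `f ∈ Γ(W₁)`, `g ∈ Γ(W₂)` with `W₁ ∩ W₂ = D(f) = D(g)`, `f g = 1` there, and
`Γ(W₁)` finite over `k[f]`, `Γ(W₂)` finite over `k[g]`.
-/
import Mathlib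
import Fermat.Agent.S25.Core
import Fermat.Prelude.Def_AlgebraicGeometry_RelativePicardFunctor

set_option autoImplicit false

universe u

namespace Fermat.Agent.S25.PRES

open CategoryTheory AlgebraicGeometry NeronModelInfra

variable {k : Type u} [Field k] {C : Scheme.{u}} (c : C ⟶ Spec (CommRingCat.of k))

/-- The structure homomorphism `k → Γ(C, U)` induced by `c : C ⟶ Spec k`. -/
noncomputable def structHom (U : C.Opens) : k →+* Γ(C, U) :=
  (c.appLE ⊤ U le_top).hom.comp (Scheme.ΓSpecIso (CommRingCat.of k)).inv.hom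

/-- The `k`-algebra structure on `Γ(C, U)` induced by `c : C ⟶ Spec k`.  Not an instance:
use `letI := algOpen c U`. -/
@[reducible] noncomputable def algOpen (U : C.Opens) : Algebra k Γ(C, U) :=
  (structHom c U).toAlgebra

/-- Restriction of sections, as a ring homomorphism. -/
noncomputable def res {U V : C.Opens} (h : V ≤ U) : Γ(C, U) →+* Γ(C, V) :=
  (C.presheaf.map (homOfLE h).op).hom

lemma res_comp_structHom {U V : C.Opens} (h : V ≤ U) :
    (res h).comp (structHom c U) = structHom c V := by
  unfold res structHom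
  rw [← RingHom.comp_assoc]
  congr 1
  rw [← CommRingCat.hom_comp, Scheme.Hom.appLE_map]

lemma res_structHom_apply {U V : C.Opens} (h : V ≤ U) (a : k) :
    res h (structHom c U a) = structHom c V a :=
  congrArg (fun φ : k →+* Γ(C, V) => φ a) (res_comp_structHom c h)

@[simp] lemma res_res {U V W : C.Opens} (h : V ≤ U) (h' : W ≤ V) (s : Γ(C, U)) :
    res h' (res h s) = res (h'.trans h) s := by
  unfold res
  rw [← RingHom.comp_apply, ← CommRingCat.hom_comp, ← Functor.map_comp]
  rfl

/-- Restriction of sections, as a `k`-algebra homomorphism (for the structures `algOpen`). -/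
noncomputable def resAlg {U V : C.Opens} (h : V ≤ U) :
    letI := algOpen c U; letI := algOpen c V; Γ(C, U) →ₐ[k] Γ(C, V) :=
  letI := algOpen c U; letI := algOpen c V
  { res h with commutes' := fun a => res_structHom_apply c h a }

/-- A two-chart presentation of the curve `C` (route section "Layer 0"). -/
structure Presentation (ε : SchemeHomOver (𝟙 (Spec (CommRingCat.of k))) c) where
  W₁ : C.Opens
  W₂ : C.Opens
  affine₁ : IsAffineOpen W₁
  affine₂ : IsAffineOpen W₂
  cover : W₁ ⊔ W₂ = ⊤
  f : Γ(C, W₁)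
  g : Γ(C, W₂)
  basicOpen_f : C.basicOpen f = W₁ ⊓ W₂
  basicOpen_g : C.basicOpen g = W₁ ⊓ W₂
  f_mul_g : res (inf_le_left : W₁ ⊓ W₂ ≤ W₁) f * res (inf_le_right : W₁ ⊓ W₂ ≤ W₂) g = 1
  finite₁ : letI := algOpen c W₁
    Module.Finite (Algebra.adjoin k ({f} : Set Γ(C, W₁))) Γ(C, W₁)
  finite₂ : letI := algOpen c W₂
    Module.Finite (Algebra.adjoin k ({g} : Set Γ(C, W₂))) Γ(C, W₂)
  ε_mem : ∀ p, ε.1.base p ∈ W₁

end Fermat.Agent.S25.PRES
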