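/-
S25 / SC0 leaf P2c: the coordinate ring of an affine open of `C` is a finitely generated
`k`-algebra, locally standard smooth of relative dimension one.

Leaf filled in by helper2111; statements of the skeleton (helper7345) unchanged.
-/
import Fermat.Agent.S25.PRES.Defs

set_option autoImplicit false

universe u

namespace Fermat.Agent.S25.PRES

open CategoryTheory AlgebraicGeometry NeronModelInfra

variable {k : Type u} [Field k] {C : Scheme.{u}} (c : C ⟶ Spec (CommRingCat.of k))

lemma P2c2111.structHom_eq (U : C.Opens) :
    structHom c U =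
      ((Scheme.ΓSpecIso (CommRingCat.of k)).inv ≫ c.appLE ⊤ U le_top).hom := rfl

theorem finiteType_algOpen [LocallyOfFiniteType c] {U : C.Opens} (hU : IsAffineOpen U) :
    letI := algOpen c U
    Algebra.FiniteType k Γ(C, U) := by
  have h : RingHom.FiniteType (c.appLE ⊤ U le_top).hom :=
    HasRingHomProperty.appLE @LocallyOfFiniteType c inferInstance ⟨⊤, isAffineOpen_top _⟩
      ⟨U, hU⟩ le_top
  have h' : RingHom.FiniteType (structHom c U) := by
    rw [P2c2111.structHom_eq]
    exact (RingHom.finiteType_respectsIso.cancel_left_isIso _ _).mpr h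
  exact h'

theorem locally_isStandardSmooth_structHom [SmoothOfRelativeDimension 1 c] {U : C.Opens}
    (hU : IsAffineOpen U) :
    RingHom.Locally (RingHom.IsStandardSmoothOfRelativeDimension 1) (structHom c U) := by
  have h : RingHom.Locally (RingHom.IsStandardSmoothOfRelativeDimension 1)
      (c.appLE ⊤ U le_top).hom :=
    HasRingHomProperty.appLE (@SmoothOfRelativeDimension 1) c inferInstance
      ⟨⊤, isAffineOpen_top _⟩ ⟨U, hU⟩ le_top
  rw [P2c2111.structHom_eq]
  exact ((HasRingHomProperty.isLocal_ringHomProperty
    (@SmoothOfRelativeDimension 1)).respectsIso.cancel_left_isIso _ _).mpr h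

end Fermat.Agent.S25.PRES
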