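/-
S25 helper library (helper4645): cotangent space at a rational point of a `k`-algebra,
and "locally standard smooth of relative dimension one over an algebraically closed field
implies Dedekind".  Mathlib-only, complete proofs.
-/
import Mathlib

set_option autoImplicit false

universe u

namespace Fermat.Agent.S25.PRES.H4645

open scoped TensorProduct
open KaehlerDifferential

section RationalPoint

variable (k A : Type u) [Field k] [CommRing A] [Algebra k A] [Algebra A k] [IsScalarTower k A k]

theorem algebraMap_surjective_of_tower : Function.Surjective (algebraMap A k) := fun c =>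
  ⟨algebraMap k A c, by rw [← IsScalarTower.algebraMap_apply]; rfl⟩

/-- At a `k`-rational point `A → k` of a `k`-algebra, `𝔪/𝔪² → k ⊗_A Ω_{A/k}` is bijective. -/
theorem kerCotangentToTensor_bijective :
    Function.Bijective (kerCotangentToTensor k A k) := by
  have hf : Function.Surjective (algebraMap A k) := algebraMap_surjective_of_tower k A
  obtain ⟨l, hl⟩ := (retractionKerCotangentToTensorEquivSection (R := k) hf).symm
    ⟨Algebra.ofId k _, by ext⟩
  constructor
  · exact Function.LeftInverse.injective (g := l) (fun x => LinearMap.congr_fun hl x)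
  · intro y
    have hsub : Subsingleton Ω[k⁄k] :=
      KaehlerDifferential.subsingleton_of_surjective k k Function.surjective_id
    exact ((KaehlerDifferential.exact_kerCotangentToTensor_mapBaseChange k A k hf) y).mp
      (Subsingleton.elim _ _)

/-- At a rational point of a standard smooth algebra of relative dimension one, the maximal
ideal is generated by one element modulo its square. -/
theorem exists_mem_ker_le_span_sup_sq [Algebra.IsStandardSmoothOfRelativeDimension 1 k A] :
    ∃ t₀ ∈ RingHom.ker (algebraMap A k),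
      RingHom.ker (algebraMap A k) ≤ Ideal.span {t₀} ⊔ RingHom.ker (algebraMap A k) ^ 2 := by
  have hf : Function.Surjective (algebraMap A k) := algebraMap_surjective_of_tower k A
  have : Nontrivial A := (algebraMap A k).domain_nontrivial
  have : Algebra.IsStandardSmooth k A :=
    Algebra.IsStandardSmoothOfRelativeDimension.isStandardSmooth 1
  have hrank : Module.rank A Ω[A⁄k] = 1 := by
    simpa using Algebra.IsStandardSmoothOfRelativeDimension.rank_kaehlerDifferential
      (R := k) (S := A) 1
  have : Module.Finite A Ω[A⁄k] := Module.finite_of_rank_eq_one hrank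
  have hfr : Module.finrank A Ω[A⁄k] = 1 := Module.finrank_eq_of_rank_eq hrank
  let b : Module.Basis (Fin 1) A Ω[A⁄k] := Module.finBasisOfFinrankEq A Ω[A⁄k] hfr
  -- every element of `k ⊗ Ω` is a multiple of `1 ⊗ b 0`
  have hgen : ∀ y : k ⊗[A] Ω[A⁄k], ∃ a : A, y = a • ((1 : k) ⊗ₜ[A] b 0) := by
    intro y
    induction y using TensorProduct.induction_on with
    | zero => exact ⟨0, by simp⟩
    | tmul c ω =>
      obtain ⟨r, hr⟩ : ∃ r : A, ω = r • b 0 := by
        refine ⟨b.repr ω 0, ?_⟩
        conv_lhs => rw [← b.sum_repr ω]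
        simp
      obtain ⟨c', rfl⟩ := hf c
      refine ⟨c' * r, ?_⟩
      rw [hr, TensorProduct.tmul_smul, TensorProduct.smul_tmul', TensorProduct.smul_tmul']
      congr 1
      rw [Algebra.smul_def, Algebra.smul_def, mul_one, map_mul, mul_comm]
    | add x y hx hy =>
      obtain ⟨a, rfl⟩ := hx
      obtain ⟨a', rfl⟩ := hy
      exact ⟨a + a', by rw [add_smul]⟩
  obtain ⟨hinj, hsurj⟩ := kerCotangentToTensor_bijective k A
  obtain ⟨v, hv⟩ := hsurj ((1 : k) ⊗ₜ[A] b 0)
  obtain ⟨t₀, rfl⟩ := Ideal.toCotangent_surjective _ v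
  refine ⟨t₀.1, t₀.2, fun x hx => ?_⟩
  obtain ⟨a, ha⟩ := hgen (kerCotangentToTensor k A k (Ideal.toCotangent _ ⟨x, hx⟩))
  rw [← hv, ← map_smul, ← map_smul] at ha
  have h2 := (Ideal.toCotangent_eq _).mp (hinj ha)
  have hx' : x = a * t₀.1 + (x - a * t₀.1) := by ring
  rw [hx']
  refine Ideal.add_mem _ (Ideal.mem_sup_left ?_) (Ideal.mem_sup_right ?_)
  · exact Ideal.mul_mem_left _ _ (Ideal.subset_span rfl)
  · simpa using h2

end RationalPoint

section Dedekind

/-- Nakayama: if an ideal `𝔫` of `B` generates the maximal ideal of a noetherian local ring `R`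
and is generated by one element modulo its square, the maximal ideal of `R` is principal. -/
theorem maximalIdeal_isPrincipal_of_map {B R : Type u} [CommRing B] [CommRing R] [IsLocalRing R]
    [IsNoetherianRing R] (φ : B →+* R) (𝔫 : Ideal B)
    (h𝔫 : 𝔫.map φ = IsLocalRing.maximalIdeal R) (t₀ : B) (ht₀ : t₀ ∈ 𝔫)
    (h : 𝔫 ≤ Ideal.span {t₀} ⊔ 𝔫 ^ 2) : (IsLocalRing.maximalIdeal R).IsPrincipal := by
  refine ⟨⟨φ t₀, le_antisymm ?_ ?_⟩⟩
  · have h1 : IsLocalRing.maximalIdeal R ≤
        Ideal.span {φ t₀} ⊔ IsLocalRing.maximalIdeal R • IsLocalRing.maximalIdeal R := by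
      calc IsLocalRing.maximalIdeal R = 𝔫.map φ := h𝔫.symm
        _ ≤ (Ideal.span {t₀} ⊔ 𝔫 ^ 2).map φ := Ideal.map_mono h
        _ = Ideal.span {φ t₀} ⊔ IsLocalRing.maximalIdeal R • IsLocalRing.maximalIdeal R := by
          rw [Ideal.map_sup, Ideal.map_span, Set.image_singleton, Ideal.map_pow, pow_two,
            smul_eq_mul, h𝔫]
    exact Submodule.le_of_le_smul_of_le_jacobson_bot (IsNoetherian.noetherian _)
      (IsLocalRing.maximalIdeal_le_jacobson _) h1
  · rw [Ideal.submodule_span_eq, Ideal.span_singleton_le_iff_mem, ← h𝔫]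
    exact Ideal.mem_map_of_mem _ ht₀

/-- A noetherian domain all of whose localisations at maximal ideals have principal maximal
ideal is a Dedekind domain. -/
theorem isDedekindDomain_of_maximalIdeal_isPrincipal {A : Type u} [CommRing A] [IsDomain A]
    [IsNoetherianRing A]
    (h : ∀ (𝔪 : Ideal A) [𝔪.IsMaximal],
      (IsLocalRing.maximalIdeal (Localization.AtPrime 𝔪)).IsPrincipal) :
    IsDedekindDomain A := by
  have hdvr : IsDedekindDomainDvr A := by
    refine ⟨fun P hP0 hPp => ?_⟩
    obtain ⟨𝔪, h𝔪, hPm⟩ := Ideal.exists_le_maximal P hPp.ne_top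
    have hpid : IsPrincipalIdealRing (Localization.AtPrime 𝔪) :=
      ((tfae_of_isNoetherianRing_of_isLocalRing_of_isDomain (Localization.AtPrime 𝔪)).out 4 0).mp
        (h 𝔪)
    have hdisj : Disjoint (𝔪.primeCompl : Set A) P := by
      rw [Set.disjoint_left]
      intro x hx hxP
      exact hx (hPm hxP)
    have hdisj' : Disjoint (𝔪.primeCompl : Set A) 𝔪 := by
      rw [Set.disjoint_left]
      intro x hx hxP
      exact hx hxP
    have hP' : (P.map (algebraMap A (Localization.AtPrime 𝔪))).IsPrime :=
      IsLocalization.isPrime_of_isPrime_disjoint 𝔪.primeCompl _ P hPp hdisj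
    have hne : P.map (algebraMap A (Localization.AtPrime 𝔪)) ≠ ⊥ := by
      intro h0
      apply hP0
      rw [eq_bot_iff]
      intro x hx
      have hx' : algebraMap A (Localization.AtPrime 𝔪) x ∈
          P.map (algebraMap A (Localization.AtPrime 𝔪)) := Ideal.mem_map_of_mem _ hx
      rw [h0, Ideal.mem_bot] at hx'
      exact (IsLocalization.to_map_eq_zero_iff (Localization.AtPrime 𝔪)
        𝔪.primeCompl_le_nonZeroDivisors).mp hx'
    have hmax : (P.map (algebraMap A (Localization.AtPrime 𝔪))).IsMaximal := hP'.isMaximal hne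
    have heq : P.map (algebraMap A (Localization.AtPrime 𝔪)) =
        𝔪.map (algebraMap A (Localization.AtPrime 𝔪)) := by
      rw [Localization.AtPrime.map_eq_maximalIdeal]
      exact IsLocalRing.eq_maximalIdeal hmax
    have hPeq : P = 𝔪 := by
      have e1 := IsLocalization.under_map_of_isPrime_disjoint 𝔪.primeCompl
        (Localization.AtPrime 𝔪) hPp hdisj
      have e2 := IsLocalization.under_map_of_isPrime_disjoint 𝔪.primeCompl
        (Localization.AtPrime 𝔪) h𝔪.isPrime hdisj'
      rw [← e1, heq, e2]
    subst hPeq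
    exact { hpid with
      not_a_field' := by
        rw [← Localization.AtPrime.map_eq_maximalIdeal]
        exact hne }
  infer_instance

/-- A domain of finite type over an algebraically closed field which is locally standard smooth
of relative dimension one is a Dedekind domain. -/
theorem isDedekindDomain_of_locally_isStandardSmooth
    (k A : Type u) [Field k] [IsAlgClosed k] [CommRing A] [IsDomain A] [Algebra k A]
    [Algebra.FiniteType k A]
    (h : RingHom.Locally (RingHom.IsStandardSmoothOfRelativeDimension 1) (algebraMap k A)) :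
    IsDedekindDomain A := by
  have : IsNoetherianRing A := Algebra.FiniteType.isNoetherianRing k A
  apply isDedekindDomain_of_maximalIdeal_isPrincipal
  intro 𝔪 h𝔪
  -- the rational point
  let _ : Field (A ⧸ 𝔪) := Ideal.Quotient.field 𝔪
  have : Module.Finite k (A ⧸ 𝔪) := finite_of_finite_type_of_isJacobsonRing k (A ⧸ 𝔪)
  have hbij : Function.Bijective (algebraMap k (A ⧸ 𝔪)) :=
    IsAlgClosed.algebraMap_bijective_of_isIntegral
  let e : k ≃ₐ[k] (A ⧸ 𝔪) := AlgEquiv.ofBijective (Algebra.ofId k (A ⧸ 𝔪)) hbij
  let ε : A →ₐ[k] k := (e.symm : (A ⧸ 𝔪) →ₐ[k] k).comp (Ideal.Quotient.mkₐ k 𝔪)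
  have hε : ∀ a : A, ε a = 0 ↔ a ∈ 𝔪 := by
    intro a
    simp only [ε, AlgHom.coe_comp, Function.comp_apply, AlgEquiv.coe_toAlgHom,
      EmbeddingLike.map_eq_zero_iff, Ideal.Quotient.mkₐ_eq_mk, Ideal.Quotient.eq_zero_iff_mem]
  obtain ⟨s, hs, hP⟩ := h
  obtain ⟨t, hts, ht𝔪⟩ : ∃ t ∈ s, t ∉ 𝔪 := by
    by_contra hcon
    push Not at hcon
    have hle : Ideal.span s ≤ 𝔪 := Ideal.span_le.mpr hcon
    rw [hs] at hle
    exact h𝔪.ne_top (top_le_iff.mp hle)
  have hstd : Algebra.IsStandardSmoothOfRelativeDimension 1 k (Localization.Away t) := by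
    have h1 := (hP t hts).toAlgebra
    have h2 : ((algebraMap A (Localization.Away t)).comp (algebraMap k A)).toAlgebra =
        (inferInstance : Algebra k (Localization.Away t)) :=
      Algebra.algebra_ext _ _ (fun r => rfl)
    rwa [h2] at h1
  have hεt : IsUnit (ε.toRingHom t) := by
    rw [isUnit_iff_ne_zero]
    exact fun h0 => ht𝔪 ((hε t).mp h0)
  let ψ : Localization.Away t →+* k := IsLocalization.Away.lift t hεt
  have hψ : ∀ a : A, ψ (algebraMap A (Localization.Away t) a) = ε a := fun a =>
    IsLocalization.Away.lift_eq t hεt a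
  let _ : Algebra (Localization.Away t) k := ψ.toAlgebra
  have : IsScalarTower k (Localization.Away t) k := IsScalarTower.of_algebraMap_eq (fun c => by
    change c = ψ (algebraMap k (Localization.Away t) c)
    rw [IsScalarTower.algebraMap_apply k A (Localization.Away t), hψ, AlgHom.commutes]
    rfl)
  obtain ⟨t₀, ht₀, hle⟩ := exists_mem_ker_le_span_sup_sq k (Localization.Away t)
  have hunit : IsUnit (algebraMap A (Localization.AtPrime 𝔪) t) :=
    IsLocalization.map_units (Localization.AtPrime 𝔪) (⟨t, ht𝔪⟩ : 𝔪.primeCompl)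
  let φ : Localization.Away t →+* Localization.AtPrime 𝔪 := IsLocalization.Away.lift t hunit
  have hφ : ∀ a : A, φ (algebraMap A (Localization.Away t) a) =
      algebraMap A (Localization.AtPrime 𝔪) a := fun a => IsLocalization.Away.lift_eq t hunit a
  refine maximalIdeal_isPrincipal_of_map φ (RingHom.ker (algebraMap (Localization.Away t) k))
    (le_antisymm ?_ ?_) t₀ ht₀ hle
  · rw [Ideal.map_le_iff_le_comap]
    intro b hb
    rw [Ideal.mem_comap]
    obtain ⟨n, a, hna⟩ := IsLocalization.Away.surj t b
    have hb0 : ψ b = 0 := hb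
    have ha : a ∈ 𝔪 := by
      rw [← hε, ← hψ, ← hna, map_mul, hb0, zero_mul]
    have hmem : φ b * (algebraMap A (Localization.AtPrime 𝔪) t) ^ n ∈
        IsLocalRing.maximalIdeal (Localization.AtPrime 𝔪) := by
      rw [← hφ t, ← map_pow, ← map_mul, hna, hφ, ← Localization.AtPrime.map_eq_maximalIdeal]
      exact Ideal.mem_map_of_mem _ ha
    exact (Ideal.mul_unit_mem_iff_mem _ (hunit.pow n)).mp hmem
  · rw [← Localization.AtPrime.map_eq_maximalIdeal, Ideal.map_le_iff_le_comap]
    intro a ha
    rw [Ideal.mem_comap, ← hφ]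
    refine Ideal.mem_map_of_mem _ ?_
    change ψ _ = 0
    rw [hψ, hε]
    exact ha

/-- A domain of finite type over an algebraically closed field which is locally standard smooth
of relative dimension one is not a field. -/
theorem not_isField_of_locally_isStandardSmooth
    (k A : Type u) [Field k] [IsAlgClosed k] [CommRing A] [IsDomain A] [Algebra k A]
    [Algebra.FiniteType k A]
    (h : RingHom.Locally (RingHom.IsStandardSmoothOfRelativeDimension 1) (algebraMap k A)) :
    ¬ IsField A := by
  intro hF
  let _ : Field A := hF.toField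
  have : Module.Finite k A := finite_of_finite_type_of_isJacobsonRing k A
  have hbij : Function.Bijective (algebraMap k A) :=
    IsAlgClosed.algebraMap_bijective_of_isIntegral
  obtain ⟨s, hs, hP⟩ := h
  obtain ⟨t, hts, ht0⟩ : ∃ t ∈ s, t ≠ 0 := by
    by_contra hcon
    push Not at hcon
    have hle : Ideal.span s ≤ ⊥ := Ideal.span_le.mpr (fun t ht => by simp [hcon t ht])
    rw [hs] at hle
    exact top_ne_bot (le_bot_iff.mp hle)
  have hstd : Algebra.IsStandardSmoothOfRelativeDimension 1 k (Localization.Away t) := by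
    have h1 := (hP t hts).toAlgebra
    have h2 : ((algebraMap A (Localization.Away t)).comp (algebraMap k A)).toAlgebra =
        (inferInstance : Algebra k (Localization.Away t)) :=
      Algebra.algebra_ext _ _ (fun r => rfl)
    rwa [h2] at h1
  have hsurj : Function.Surjective (algebraMap k (Localization.Away t)) := by
    intro z
    obtain ⟨n, a, hna⟩ := IsLocalization.Away.surj t z
    obtain ⟨c, hc⟩ := hbij.2 (a * (t ^ n)⁻¹)
    refine ⟨c, ?_⟩
    rw [IsScalarTower.algebraMap_apply k A (Localization.Away t), hc, map_mul, ← hna, mul_assoc,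
      ← map_pow, ← map_mul, mul_inv_cancel₀ (pow_ne_zero n ht0), map_one, mul_one]
  have hsub : Subsingleton Ω[Localization.Away t⁄k] :=
    KaehlerDifferential.subsingleton_of_surjective k (Localization.Away t) hsurj
  have : Nontrivial (Localization.Away t) :=
    (IsLocalization.injective (Localization.Away t)
      (powers_le_nonZeroDivisors_of_noZeroDivisors ht0)).nontrivial
  have hrank := Algebra.IsStandardSmoothOfRelativeDimension.rank_kaehlerDifferential
    (R := k) (S := Localization.Away t) 1
  rw [rank_subsingleton'] at hrank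
  simp at hrank

end Dedekind

end Fermat.Agent.S25.PRES.H4645
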