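/-
S25 / SC0 leaf P2a (pure algebra): a finitely generated domain over an algebraically closed
field which is locally standard smooth of relative dimension one is a Dedekind domain and not
a field.  (Route 2.2 / Layer 0: `𝔪/𝔪² ≅ Ω ⊗ κ(𝔪)` has rank one, so the local rings at maximal
ideals are discrete valuation rings.)

Leaf of helper7345's SC0 sub-skeleton (statement unchanged), assembled by helper5950:
the Dedekind half is helper4645's `H4645.isDedekindDomain_of_locally_isStandardSmooth`
(`Fermat/Agent/S25/H4645/Cotangent.lean`, copied verbatim from origin/helper4645);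
the "not a field" half is proved here (`P2a5950`).
-/
import Mathlib
import Fermat.Agent.S25.PRES.Cotangent

set_option autoImplicit false
set_option linter.style.haveILetI false

universe u

namespace Fermat.Agent.S25.PRES

namespace P2a5950

/-- A finitely generated algebra over an algebraically closed field which is a field is the
base field. -/
theorem algebraMap_bijective_of_isField {k A : Type*} [Field k] [IsAlgClosed k] [CommRing A]
    [Algebra k A] [Algebra.FiniteType k A] (hF : IsField A) :
    Function.Bijective (algebraMap k A) := by
  have hmax : (⊥ : Ideal A).IsMaximal := by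
    letI := hF.toField
    exact Ideal.bot_isMaximal
  letI : Field (A ⧸ (⊥ : Ideal A)) := Ideal.Quotient.field _
  have hfin : Module.Finite k (A ⧸ (⊥ : Ideal A)) :=
    finite_of_finite_type_of_isJacobsonRing k (A ⧸ (⊥ : Ideal A))
  have hbij : Function.Bijective (algebraMap k (A ⧸ (⊥ : Ideal A))) :=
    IsAlgClosed.algebraMap_bijective_of_isIntegral (k := k)
  have hq : Function.Bijective (Ideal.Quotient.mk (⊥ : Ideal A)) :=
    ⟨(RingHom.injective_iff_ker_eq_bot _).mpr (by simp), Ideal.Quotient.mk_surjective⟩
  have hcomp : (algebraMap k (A ⧸ (⊥ : Ideal A)) : k → A ⧸ (⊥ : Ideal A)) =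
      Ideal.Quotient.mk (⊥ : Ideal A) ∘ algebraMap k A := rfl
  rw [hcomp] at hbij
  exact (Function.Bijective.of_comp_iff' hq _).mp hbij

/-- A finitely generated algebra over an algebraically closed field `k` which is locally
standard smooth of relative dimension one is not a field. -/
theorem not_isField_of_locally_isStandardSmooth {k A : Type u} [Field k] [IsAlgClosed k]
    [CommRing A] [Nontrivial A] [Algebra k A] [Algebra.FiniteType k A]
    (h : RingHom.Locally (RingHom.IsStandardSmoothOfRelativeDimension 1) (algebraMap k A)) :
    ¬ IsField A := by
  intro hF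
  have hbij := algebraMap_bijective_of_isField (k := k) hF
  obtain ⟨s, hs, hP⟩ := h
  -- some element of `s` is nonzero, hence a unit
  obtain ⟨t, hts, ht0⟩ : ∃ t ∈ s, t ≠ 0 := by
    by_contra hcon
    push Not at hcon
    have : Ideal.span s = ⊥ := by
      rw [Ideal.span_eq_bot]
      exact hcon
    rw [this] at hs
    exact bot_ne_top hs
  have htu : IsUnit t := by
    obtain ⟨b, hb⟩ := hF.mul_inv_cancel ht0
    exact IsUnit.of_mul_eq_one b hb
  have hPt := hP t hts
  have hloc : Function.Bijective (algebraMap A (Localization.Away t)) := by
    have e := IsLocalization.atUnits A (Submonoid.powers t) (S := Localization.Away t) (by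
      rintro _ ⟨n, rfl⟩
      exact htu.pow n)
    have he : (algebraMap A (Localization.Away t) : A → Localization.Away t) = e := by
      funext a
      exact (e.commutes a).symm
    rw [he]
    exact e.bijective
  set φ : k →+* Localization.Away t := (algebraMap A (Localization.Away t)).comp (algebraMap k A)
    with hφ
  have hφs : Function.Surjective φ := hloc.surjective.comp hbij.surjective
  letI := φ.toAlgebra
  have hsm : Algebra.IsStandardSmoothOfRelativeDimension 1 k (Localization.Away t) := hPt
  have hnt : Nontrivial (Localization.Away t) := hloc.injective.nontrivial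
  have hrank := Algebra.IsStandardSmoothOfRelativeDimension.rank_kaehlerDifferential
    (R := k) (S := Localization.Away t) 1
  have hsub : Subsingleton (Ω[Localization.Away t⁄k]) :=
    KaehlerDifferential.subsingleton_of_surjective k (Localization.Away t) hφs
  rw [rank_subsingleton'] at hrank
  simp at hrank

end P2a5950

theorem isDedekindDomain_of_locally_isStandardSmooth {k A : Type u} [Field k] [IsAlgClosed k]
    [CommRing A] [IsDomain A] [Algebra k A] [Algebra.FiniteType k A]
    (h : RingHom.Locally (RingHom.IsStandardSmoothOfRelativeDimension 1) (algebraMap k A)) :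
    IsDedekindDomain A ∧ ¬ IsField A :=
  ⟨Fermat.Agent.S25.PRES.H4645.isDedekindDomain_of_locally_isStandardSmooth k A h,
    P2a5950.not_isField_of_locally_isStandardSmooth h⟩

end Fermat.Agent.S25.PRES
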