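/-
S25 / SC0 leaf P7: the `CurveData` of a two-chart presentation.
`A₁ := Γ(C, W₁)`, `A₂ := Γ(C, W₂)`, `A₁₂ := Γ(C, W₁ ⊓ W₂)` definitionally, with the
`k`-algebra structures `algOpen c _`, `r_i` the restriction maps, `ε` evaluation at the
rigidifying point.

Leaf P7 filled in by helper2111 (auxiliary lemmas in namespace `Fermat.Agent.S25.PRES.P72111`);
the statements of the skeleton (helper7345) are unchanged.  Uses the statements of the leaves
P2a (`isDedekindDomain_of_locally_isStandardSmooth`) and P2c (`finiteType_algOpen`,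
`locally_isStandardSmooth_structHom`).
-/
import Fermat.Agent.S25.PRES.Defs
import Fermat.Agent.S25.PRES.AffAlg
import Fermat.Agent.S25.PRES.AlgDed

set_option autoImplicit false
set_option linter.style.haveILetI false

universe u

namespace Fermat.Agent.S25.PRES

open CategoryTheory AlgebraicGeometry NeronModelInfra

variable {k : Type u} [Field k] {C : Scheme.{u}} {c : C ⟶ Spec (CommRingCat.of k)}
  {ε : SchemeHomOver (𝟙 (Spec (CommRingCat.of k))) c}

namespace P72111

lemma appLE_top_eq_id {X : Scheme.{u}} (φ : X ⟶ X) (h : φ = 𝟙 X)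
    (e : (⊤ : X.Opens) ≤ φ ⁻¹ᵁ ⊤) : φ.appLE ⊤ ⊤ e = 𝟙 _ := by
  subst h
  simp only [Scheme.Hom.appLE, Scheme.Hom.id_app]
  exact (congrArg X.presheaf.map (Subsingleton.elim _ _)).trans (X.presheaf.map_id _)

lemma appLE_top_eq_appTop {X Y : Scheme.{u}} (φ : X ⟶ Y) (e : (⊤ : X.Opens) ≤ φ ⁻¹ᵁ ⊤) :
    φ.appLE ⊤ ⊤ e = φ.appTop := by
  unfold Scheme.Hom.appLE Scheme.Hom.appTop
  have h : X.presheaf.map (homOfLE e).op = 𝟙 _ :=
    (congrArg X.presheaf.map (Subsingleton.elim _ _)).trans (X.presheaf.map_id _)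
  exact (congrArg (fun m => φ.app ⊤ ≫ m) h).trans (Category.comp_id _)

lemma nonempty₁ (P : Presentation c ε) : Nonempty P.W₁ :=
  ⟨⟨ε.1.base (Classical.arbitrary _), P.ε_mem _⟩⟩

/-- Localisation form of `W₁ ⊓ W₂ = D(f)`. -/
lemma surj₁ (P : Presentation c ε) (y : Γ(C, P.W₁ ⊓ P.W₂)) :
    ∃ (a : Γ(C, P.W₁)) (n : ℕ),
      y = res inf_le_left a * res (inf_le_right : P.W₁ ⊓ P.W₂ ≤ P.W₂) P.g ^ n := by
  have hloc := P.affine₁.isLocalization_of_eq_basicOpen P.f (homOfLE inf_le_left)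
    P.basicOpen_f.symm
  letI := (C.presheaf.map (homOfLE (inf_le_left : P.W₁ ⊓ P.W₂ ≤ P.W₁)).op).hom.toAlgebra
  obtain ⟨n, a, h⟩ := IsLocalization.Away.surj P.f y
  refine ⟨a, n, ?_⟩
  have hfg := P.f_mul_g
  change y * res inf_le_left P.f ^ n = res inf_le_left a at h
  rw [← h, mul_assoc, ← mul_pow, hfg, one_pow, mul_one]

/-- Localisation form of `W₁ ⊓ W₂ = D(g)`. -/
lemma surj₂ (P : Presentation c ε) (y : Γ(C, P.W₁ ⊓ P.W₂)) :
    ∃ (a : Γ(C, P.W₂)) (n : ℕ),
      y = res inf_le_right a * res (inf_le_left : P.W₁ ⊓ P.W₂ ≤ P.W₁) P.f ^ n := by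
  have hloc := P.affine₂.isLocalization_of_eq_basicOpen P.g (homOfLE inf_le_right)
    P.basicOpen_g.symm
  letI := (C.presheaf.map (homOfLE (inf_le_right : P.W₁ ⊓ P.W₂ ≤ P.W₂)).op).hom.toAlgebra
  obtain ⟨n, a, h⟩ := IsLocalization.Away.surj P.g y
  refine ⟨a, n, ?_⟩
  have hfg := P.f_mul_g
  change y * res inf_le_right P.g ^ n = res inf_le_right a at h
  rw [← h, mul_assoc, ← mul_pow, mul_comm (res _ P.g), hfg, one_pow, mul_one]

/-- Gluing two sections agreeing on the overlap. -/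
lemma exists_glue (U V : C.Opens) (a : Γ(C, U)) (b : Γ(C, V))
    (h : res (inf_le_left : U ⊓ V ≤ U) a = res (inf_le_right : U ⊓ V ≤ V) b) :
    ∃ s : Γ(C, U ⊔ V), res (le_sup_left : U ≤ U ⊔ V) s = a ∧
      res (le_sup_right : V ≤ U ⊔ V) s = b := by
  let x : CommRingCat.of
      (((CommRingCat.Hom.hom (C.sheaf.obj.map (homOfLE (inf_le_left : U ⊓ V ≤ U)).op)).comp
          (RingHom.fst ↑(C.sheaf.obj.obj (Opposite.op U))
            ↑(C.sheaf.obj.obj (Opposite.op V)))).eqLocus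
        ((CommRingCat.Hom.hom (C.sheaf.obj.map (homOfLE (inf_le_right : U ⊓ V ≤ V)).op)).comp
          (RingHom.snd ↑(C.sheaf.obj.obj (Opposite.op U))
            ↑(C.sheaf.obj.obj (Opposite.op V))))) :=
    ⟨(a, b), h⟩
  refine ⟨(TopCat.Sheaf.objSupIsoProdEqLocus C.sheaf U V).inv x, ?_, ?_⟩
  · exact TopCat.Sheaf.objSupIsoProdEqLocus_inv_fst C.sheaf U V x
  · exact TopCat.Sheaf.objSupIsoProdEqLocus_inv_snd C.sheaf U V x

section proper

variable [IsAlgClosed k] [IsProper c] [IsIntegral C]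

/-- Global sections of the proper integral `C` over an algebraically closed field are
constants. -/
lemma exists_const_of_eq_top (V : C.Opens) (hV : V = ⊤) (s : Γ(C, V)) :
    ∃ c0 : k, s = structHom c V c0 := by
  subst hV
  letI := algOpen c ⊤
  have hfin : (structHom c (⊤ : C.Opens)).Finite := by
    unfold structHom
    refine RingHom.Finite.comp ?_ ?_
    · have h := finite_appTop_of_universallyClosed k c
      rw [← appLE_top_eq_appTop c (le_top : (⊤ : C.Opens) ≤ c ⁻¹ᵁ ⊤)] at h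
      exact h
    · exact RingHom.Finite.of_surjective _
        (ConcreteCategory.bijective_of_isIso (Scheme.ΓSpecIso (CommRingCat.of k)).inv).2
  haveI : Module.Finite k Γ(C, (⊤ : C.Opens)) := hfin
  haveI : Nonempty (⊤ : C.Opens) := ⟨⟨Classical.arbitrary C, trivial⟩⟩
  haveI : IsDomain Γ(C, (⊤ : C.Opens)) := inferInstance
  obtain ⟨c0, hc0⟩ := (IsAlgClosed.algebraMap_bijective_of_isIntegral
    (k := k) (K := Γ(C, (⊤ : C.Opens)))).2 s
  exact ⟨c0, hc0.symm⟩

/-- `H⁰(C, O) = k`: a pair of sections on the two charts agreeing on the overlap is constant. -/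
lemma glob (P : Presentation c ε) (a₁ : Γ(C, P.W₁)) (a₂ : Γ(C, P.W₂))
    (h : res (inf_le_left : P.W₁ ⊓ P.W₂ ≤ P.W₁) a₁ =
      res (inf_le_right : P.W₁ ⊓ P.W₂ ≤ P.W₂) a₂) :
    ∃ c0 : k, a₁ = structHom c P.W₁ c0 := by
  obtain ⟨s, hs₁, -⟩ := exists_glue P.W₁ P.W₂ a₁ a₂ h
  obtain ⟨c0, hc0⟩ := exists_const_of_eq_top (c := c) _ P.cover s
  exact ⟨c0, by rw [← hs₁, hc0, res_structHom_apply]⟩

end proper

section smooth

variable [IsAlgClosed k] [IsProper c] [SmoothOfRelativeDimension 1 c] [IsIntegral C]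

lemma f_ne_zero (P : Presentation c ε) : P.f ≠ 0 := by
  intro h0
  letI := algOpen c P.W₁
  haveI := nonempty₁ P
  haveI : IsDomain Γ(C, P.W₁) := inferInstance
  haveI : Algebra.FiniteType k Γ(C, P.W₁) := finiteType_algOpen c P.affine₁
  have hsm : RingHom.Locally (RingHom.IsStandardSmoothOfRelativeDimension 1)
      (algebraMap k Γ(C, P.W₁)) := locally_isStandardSmooth_structHom c P.affine₁
  obtain ⟨-, hnf⟩ := isDedekindDomain_of_locally_isStandardSmooth hsm
  apply hnf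
  haveI hint1 : Algebra.IsIntegral k (Algebra.adjoin k ({P.f} : Set Γ(C, P.W₁))) :=
    Algebra.IsIntegral.adjoin (by
      intro x hx
      rw [Set.mem_singleton_iff] at hx
      rw [hx, h0]
      exact isIntegral_zero)
  haveI := P.finite₁
  haveI : Algebra.IsIntegral k Γ(C, P.W₁) :=
    Algebra.IsIntegral.trans (Algebra.adjoin k ({P.f} : Set Γ(C, P.W₁)))
  exact isField_of_isIntegral_of_isField' (Field.toIsField k)

lemma nonempty_inf (P : Presentation c ε) : Nonempty (P.W₁ ⊓ P.W₂ : C.Opens) := by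
  by_contra hne
  apply f_ne_zero P
  have : C.basicOpen P.f = ⊥ := by
    rw [P.basicOpen_f, ← TopologicalSpace.Opens.not_nonempty_iff_eq_bot]
    intro h
    exact hne (Set.nonempty_coe_sort.mpr h)
  exact (basicOpen_eq_bot_iff P.f).mp this

lemma nonempty₂ (P : Presentation c ε) : Nonempty P.W₂ := by
  obtain ⟨⟨x, hx⟩⟩ := nonempty_inf P
  exact ⟨⟨x, hx.2⟩⟩

lemma inj₁ (P : Presentation c ε) :
    Function.Injective (res (inf_le_left : P.W₁ ⊓ P.W₂ ≤ P.W₁)) := by
  haveI := nonempty_inf P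
  exact map_injective_of_isIntegral C (homOfLE (inf_le_left : P.W₁ ⊓ P.W₂ ≤ P.W₁))

lemma inj₂ (P : Presentation c ε) :
    Function.Injective (res (inf_le_right : P.W₁ ⊓ P.W₂ ≤ P.W₂)) := by
  haveI := nonempty_inf P
  exact map_injective_of_isIntegral C (homOfLE (inf_le_right : P.W₁ ⊓ P.W₂ ≤ P.W₂))

omit [IsAlgClosed k] [IsProper c] [SmoothOfRelativeDimension 1 c] in
lemma dom₁ (P : Presentation c ε) : IsDomain Γ(C, P.W₁) := by
  haveI := nonempty₁ P
  infer_instance

lemma dom₂ (P : Presentation c ε) : IsDomain Γ(C, P.W₂) := by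
  haveI := nonempty₂ P
  infer_instance

end smooth

end P72111

/-- Evaluation at the rigidifying point, as a ring homomorphism `Γ(C, W₁) → k`. -/
noncomputable def Presentation.evalHom (P : Presentation c ε) : Γ(C, P.W₁) →+* k :=
  (Scheme.ΓSpecIso (CommRingCat.of k)).hom.hom.comp
    (ε.1.appLE P.W₁ ⊤ (fun p _ => P.ε_mem p)).hom

lemma Presentation.evalHom_structHom (P : Presentation c ε) (a : k) :
    P.evalHom (structHom c P.W₁ a) = a := by
  unfold Presentation.evalHom structHom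
  have h1 : c.appLE ⊤ P.W₁ le_top ≫ ε.1.appLE P.W₁ ⊤ (fun p _ => P.ε_mem p) = 𝟙 _ :=
    (Scheme.Hom.appLE_comp_appLE ε.1 c ⊤ P.W₁ ⊤ le_top (fun p _ => P.ε_mem p)).trans
      (P72111.appLE_top_eq_id _ ε.2 _)
  have h2 := congrArg (fun φ => φ.hom ((Scheme.ΓSpecIso (CommRingCat.of k)).inv.hom a)) h1
  simp only [CommRingCat.hom_comp, RingHom.comp_apply, CommRingCat.hom_id, RingHom.id_apply] at h2
  simp only [RingHom.comp_apply]
  rw [h2]
  simp

/-- Evaluation at the rigidifying point, as a `k`-algebra homomorphism. -/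
noncomputable def Presentation.evalAlgHom (P : Presentation c ε) :
    letI := algOpen c P.W₁; Γ(C, P.W₁) →ₐ[k] k :=
  letI := algOpen c P.W₁
  { P.evalHom with commutes' := fun a => P.evalHom_structHom a }

variable [IsAlgClosed k] [IsProper c] [SmoothOfRelativeDimension 1 c] [IsIntegral C]

/-- The curve data of a presentation. -/
noncomputable def Presentation.toCurveData (P : Presentation c ε) : CurveData k :=
  letI := algOpen c P.W₁
  letI := algOpen c P.W₂
  letI := algOpen c (P.W₁ ⊓ P.W₂)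
  { A₁ := Γ(C, P.W₁)
    A₂ := Γ(C, P.W₂)
    A₁₂ := Γ(C, P.W₁ ⊓ P.W₂)
    r₁ := resAlg c inf_le_left
    r₂ := resAlg c inf_le_right
    f := P.f
    g := P.g
    fg := P.f_mul_g
    surj₁ := P72111.surj₁ P
    surj₂ := P72111.surj₂ P
    inj₁ := P72111.inj₁ P
    inj₂ := P72111.inj₂ P
    dom₁ := P72111.dom₁ P
    dom₂ := P72111.dom₂ P
    fin₁ := P.finite₁
    fin₂ := P.finite₂
    glob := P72111.glob P
    smooth₁ := locally_isStandardSmooth_structHom c P.affine₁
    smooth₂ := locally_isStandardSmooth_structHom c P.affine₂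
    ε := P.evalAlgHom }

end Fermat.Agent.S25.PRES
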