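/-
S25 / PRES: adapter from the package-internal `PRES.Presentation` (two affine charts, `A_i = Γ(C, W_i)`
definitionally) to the frozen interface structure `Fermat.Agent.S25.Presentation` (`e_i = refl`).
(helper2111)
-/
import Fermat.Agent.S25.SchDefs
import Fermat.Agent.S25.PRES.CurveData

set_option autoImplicit false

universe u

namespace Fermat.Agent.S25.PRES

open CategoryTheory CategoryTheory.Limits AlgebraicGeometry NeronModelInfra

variable {k : Type u} [Field k] [IsAlgClosed k] {C : Scheme.{u}}
  {c : C ⟶ Spec (CommRingCat.of k)} [IsProper c] [SmoothOfRelativeDimension 1 c] [IsIntegral C]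
  {ε : SchemeHomOver (𝟙 (Spec (CommRingCat.of k))) c}

/-- The frozen-interface presentation attached to a two-chart presentation (`e_i = refl`). -/
noncomputable def Presentation.toFrozen (P : Presentation c ε) :
    Fermat.Agent.S25.Presentation c ε where
  𝒞 := P.toCurveData
  U₁ := P.W₁
  U₂ := P.W₂
  affine₁ := P.affine₁
  affine₂ := P.affine₂
  cover := P.cover
  e₁ := RingEquiv.refl _
  e₂ := RingEquiv.refl _
  e₁₂ := RingEquiv.refl _
  alg₁ := fun _ => rfl
  alg₂ := fun _ => rfl
  alg₁₂ := fun _ => rfl
  res₁ := fun _ => rfl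
  res₂ := fun _ => rfl
  inter₁ := P.basicOpen_f.symm
  inter₂ := P.basicOpen_g.symm
  ε_le := fun p _ => P.ε_mem p
  ε_eq := fun _ => rfl

end Fermat.Agent.S25.PRES
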