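/-
S25 (Jacobian) pre-work, Mathlib-only.  Author: helper1190.

Over an algebraically closed field `k`:
* `isDomain_tensorProduct_of_isAlgClosed`: a tensor product of commutative `k`-domains is a domain
  (no finiteness hypotheses);
* `exists_algHom_ne_zero`: a nonzero element of a finitely generated `k`-domain does not vanish
  at some `k`-point;
* `geometricallyIntegral_of_isAlgClosed`: an integral `k`-scheme is geometrically integral
  (no finiteness hypotheses);
* `isIntegral_pullback_of_isAlgClosed`: products of integral `k`-schemes are integral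
  (one factor locally noetherian);
* `geometricallyIntegral_pullback_snd_of_isAlgClosed`: the base change `X_T ⟶ T` of an integral
  `k`-scheme is geometrically integral, for every `T ⟶ Spec k`.
-/
import Mathlib

set_option autoImplicit false

namespace Fermat.Agent.S25.PRES.H1190

open scoped TensorProduct
open CategoryTheory CategoryTheory.Limits AlgebraicGeometry

universe u v w

/-- A nonzero element of a finitely generated domain over an algebraically closed field
is nonzero at some `k`-point. -/
theorem exists_algHom_ne_zero {k : Type u} [Field k] [IsAlgClosed k] {R : Type v} [CommRing R]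
    [Algebra k R] [Algebra.FiniteType k R] [IsDomain R] (h : R) (hh : h ≠ 0) :
    ∃ φ : R →ₐ[k] k, φ h ≠ 0 := by
  let R' := Localization.Away h
  have hinj : Function.Injective (algebraMap R R') :=
    IsLocalization.injective R' (powers_le_nonZeroDivisors_of_noZeroDivisors hh)
  have : Nontrivial R' := hinj.nontrivial
  obtain ⟨m, hm⟩ := Ideal.exists_maximal R'
  let _ : Field (R' ⧸ m) := Ideal.Quotient.field m
  have : Algebra.FiniteType R R' :=
    IsLocalization.finiteType_of_monoid_fg (Submonoid.powers h) R'
  have : Algebra.FiniteType k R' :=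
    Algebra.FiniteType.trans (R := k) (S := R) (A := R') inferInstance inferInstance
  have : Algebra.FiniteType k (R' ⧸ m) :=
    Algebra.FiniteType.of_surjective (Ideal.Quotient.mkₐ k m) Ideal.Quotient.mk_surjective
  have : Module.Finite k (R' ⧸ m) := finite_of_finite_type_of_isJacobsonRing k (R' ⧸ m)
  have hbij : Function.Bijective (algebraMap k (R' ⧸ m)) :=
    IsAlgClosed.algebraMap_bijective_of_isIntegral
  let e : k ≃ₐ[k] (R' ⧸ m) := AlgEquiv.ofBijective (Algebra.ofId k (R' ⧸ m)) hbij
  let ψ : R →ₐ[k] (R' ⧸ m) := (Ideal.Quotient.mkₐ k m).comp (IsScalarTower.toAlgHom k R R')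
  refine ⟨(e.symm : (R' ⧸ m) →ₐ[k] k).comp ψ, ?_⟩
  have hu : IsUnit (algebraMap R R' h) := IsLocalization.Away.algebraMap_isUnit h
  have hψ : ψ h ≠ 0 := (hu.map (Ideal.Quotient.mkₐ k m)).ne_zero
  simpa using hψ

/-- Over an algebraically closed field, a tensor product of (commutative) domains is a domain. -/
theorem isDomain_tensorProduct_of_isAlgClosed (k : Type u) [Field k] [IsAlgClosed k]
    (A : Type v) (B : Type w) [CommRing A] [CommRing B] [Algebra k A] [Algebra k B]
    [IsDomain A] [IsDomain B] : IsDomain (A ⊗[k] B) := by
  classical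
  let b := Module.Basis.ofVectorSpace k B
  let 𝔟 := Algebra.TensorProduct.basis A b
  have : Nontrivial (A ⊗[k] B) :=
    (Algebra.TensorProduct.includeLeft_injective (R := k) (S := k) (A := A) (B := B)
      (FaithfulSMul.algebraMap_injective k B)).nontrivial
  have : NoZeroDivisors (A ⊗[k] B) := by
    refine ⟨fun {x y} hxy => ?_⟩
    by_contra hne
    rw [not_or] at hne
    obtain ⟨hx, hy⟩ := hne
    set cx := 𝔟.repr x with hcx
    set cy := 𝔟.repr y with hcy
    have hcx0 : cx ≠ 0 := fun h0 => hx (by simpa [hcx] using h0)
    have hcy0 : cy ≠ 0 := fun h0 => hy (by simpa [hcy] using h0)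
    obtain ⟨i₀, hi₀⟩ := Finsupp.support_nonempty_iff.mpr hcx0
    obtain ⟨j₀, hj₀⟩ := Finsupp.support_nonempty_iff.mpr hcy0
    let S : Finset A := cx.support.image cx ∪ cy.support.image cy
    let A₀ : Subalgebra k A := Algebra.adjoin k (S : Set A)
    have hmemx : ∀ i, cx i ∈ A₀ := by
      intro i
      by_cases hi : i ∈ cx.support
      · exact Algebra.subset_adjoin (by
          simp only [S, Finset.coe_union, Finset.coe_image]
          exact Or.inl ⟨i, hi, rfl⟩)
      · rw [Finsupp.notMem_support_iff.mp hi]; exact zero_mem _
    have hmemy : ∀ i, cy i ∈ A₀ := by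
      intro i
      by_cases hi : i ∈ cy.support
      · exact Algebra.subset_adjoin (by
          simp only [S, Finset.coe_union, Finset.coe_image]
          exact Or.inr ⟨i, hi, rfl⟩)
      · rw [Finsupp.notMem_support_iff.mp hi]; exact zero_mem _
    have : Algebra.FiniteType k A₀ :=
      (Subalgebra.fg_iff_finiteType A₀).mp (Subalgebra.fg_adjoin_finset S)
    let h : A₀ := ⟨cx i₀, hmemx i₀⟩ * ⟨cy j₀, hmemy j₀⟩
    have hh : h ≠ 0 := by
      refine mul_ne_zero ?_ ?_
      · intro h0; exact (Finsupp.mem_support_iff.mp hi₀) (congrArg Subtype.val h0)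
      · intro h0; exact (Finsupp.mem_support_iff.mp hj₀) (congrArg Subtype.val h0)
    obtain ⟨φ, hφ⟩ := exists_algHom_ne_zero (k := k) h hh
    -- preimages in `A₀ ⊗ B`
    let x₀ : A₀ ⊗[k] B := ∑ i ∈ cx.support, (⟨cx i, hmemx i⟩ : A₀) ⊗ₜ[k] b i
    let y₀ : A₀ ⊗[k] B := ∑ i ∈ cy.support, (⟨cy i, hmemy i⟩ : A₀) ⊗ₜ[k] b i
    let ι : A₀ ⊗[k] B →ₐ[k] A ⊗[k] B := Algebra.TensorProduct.map A₀.val (AlgHom.id k B)
    have hι : Function.Injective ι := by
      have : (ι : A₀ ⊗[k] B → A ⊗[k] B) = LinearMap.rTensor B A₀.val.toLinearMap := by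
        ext z; rfl
      rw [this]
      exact Module.Flat.rTensor_preserves_injective_linearMap _ Subtype.val_injective
    have hx₀ : ι x₀ = x := by
      have : x = ∑ i ∈ cx.support, cx i • 𝔟 i := by
        conv_lhs => rw [← 𝔟.linearCombination_repr x]
        rfl
      rw [this]
      simp only [x₀, map_sum, ι, Algebra.TensorProduct.map_tmul, AlgHom.id_apply,
        Subalgebra.coe_val]
      refine Finset.sum_congr rfl fun i _ => ?_
      simp [𝔟, Algebra.TensorProduct.basis_apply, TensorProduct.smul_tmul']
    have hy₀ : ι y₀ = y := by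
      have : y = ∑ i ∈ cy.support, cy i • 𝔟 i := by
        conv_lhs => rw [← 𝔟.linearCombination_repr y]
        rfl
      rw [this]
      simp only [y₀, map_sum, ι, Algebra.TensorProduct.map_tmul, AlgHom.id_apply,
        Subalgebra.coe_val]
      refine Finset.sum_congr rfl fun i _ => ?_
      simp [𝔟, Algebra.TensorProduct.basis_apply, TensorProduct.smul_tmul']
    have hxy₀ : x₀ * y₀ = 0 := by
      apply hι
      rw [map_mul, hx₀, hy₀, hxy, map_zero]
    -- evaluate at the point `φ`
    let ev : A₀ ⊗[k] B →ₐ[k] B :=
      (Algebra.TensorProduct.lid k B : k ⊗[k] B →ₐ[k] B).comp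
        (Algebra.TensorProduct.map φ (AlgHom.id k B))
    have hevx : ev x₀ = ∑ i ∈ cx.support, φ ⟨cx i, hmemx i⟩ • b i := by
      simp [ev, x₀]
    have hevy : ev y₀ = ∑ i ∈ cy.support, φ ⟨cy i, hmemy i⟩ • b i := by
      simp [ev, y₀]
    have hli := b.linearIndependent
    rw [linearIndependent_iff'] at hli
    have hev : ev x₀ * ev y₀ = 0 := by rw [← map_mul, hxy₀, map_zero]
    apply hφ
    rcases mul_eq_zero.mp hev with h0 | h0
    · rw [hevx] at h0
      have := hli cx.support (fun i => φ ⟨cx i, hmemx i⟩) h0 i₀ hi₀
      simp only [h, map_mul, this, zero_mul]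
    · rw [hevy] at h0
      have := hli cy.support (fun i => φ ⟨cy i, hmemy i⟩) h0 j₀ hj₀
      simp only [h, map_mul, this, mul_zero]
  exact NoZeroDivisors.to_isDomain _

/-- Over an algebraically closed field `k`, `Spec K ⟶ Spec k` is geometrically integral for every
field extension `K / k`. -/
theorem geometricallyIntegral_Spec_map_of_isAlgClosed (k : Type u) [Field k] [IsAlgClosed k]
    (K : Type u) [Field K] [Algebra k K] :
    GeometricallyIntegral (Spec.map (CommRingCat.ofHom (algebraMap k K))) := by
  rw [geometricallyIntegral_iff, geometrically_iff_of_commRing]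
  intro L _ _ Y fst snd h
  have hd : IsDomain (K ⊗[k] L) := isDomain_tensorProduct_of_isAlgClosed k K L
  have : IsDomain (CommRingCat.of (K ⊗[k] L)) := hd
  have : IsIntegral (pullback (Spec.map (CommRingCat.ofHom (algebraMap k K)))
      (Spec.map (CommRingCat.ofHom (algebraMap k L)))) :=
    IsIntegral.of_isIso (pullbackSpecIso k K L).inv
  exact IsIntegral.of_isIso h.isoPullback.inv

/-- An integral scheme over an algebraically closed field is geometrically integral
(no finiteness hypothesis). -/
theorem geometricallyIntegral_of_isAlgClosed {k : Type u} [Field k] [IsAlgClosed k]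
    {X : Scheme.{u}} (f : X ⟶ Spec (CommRingCat.of k)) [IsIntegral X] :
    GeometricallyIntegral f := by
  rw [geometricallyIntegral_iff, geometrically_iff_of_commRing]
  intro K _ _ Y fst snd h
  have := geometricallyIntegral_Spec_map_of_isAlgClosed k K
  have : IsIntegral (pullback f (Spec.map (CommRingCat.ofHom (algebraMap k K)))) := by
    rw [isIntegral_iff_irreducibleSpace_and_isReduced]
    refine ⟨inferInstance, ?_⟩
    have : Finite (irreducibleComponents X) := by
      rw [irreducibleComponents_eq_singleton]; infer_instance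
    exact GeometricallyReduced.isReduced_of_flat_of_finite_irreducibleComponents
      (pullback.fst f (Spec.map (CommRingCat.ofHom (algebraMap k K))))
  exact IsIntegral.of_isIso h.isoPullback.inv

/-- Products of integral schemes over an algebraically closed field are integral, provided the
second factor is locally noetherian. -/
theorem isIntegral_pullback_of_isAlgClosed {k : Type u} [Field k] [IsAlgClosed k]
    {X Y : Scheme.{u}} (f : X ⟶ Spec (CommRingCat.of k)) (g : Y ⟶ Spec (CommRingCat.of k))
    [IsIntegral X] [IsIntegral Y] [IsLocallyNoetherian Y] : IsIntegral (pullback f g) := by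
  have := geometricallyIntegral_of_isAlgClosed f
  infer_instance

/-- Products of integral schemes over an algebraically closed field are integral, provided the
first factor is locally noetherian. -/
theorem isIntegral_pullback_of_isAlgClosed' {k : Type u} [Field k] [IsAlgClosed k]
    {X Y : Scheme.{u}} (f : X ⟶ Spec (CommRingCat.of k)) (g : Y ⟶ Spec (CommRingCat.of k))
    [IsIntegral X] [IsIntegral Y] [IsLocallyNoetherian X] : IsIntegral (pullback f g) := by
  have := geometricallyIntegral_of_isAlgClosed g
  infer_instance

/-- The base change `X ×ₖ T ⟶ T` of an integral scheme over an algebraically closed field `k`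
is geometrically integral, for every `T ⟶ Spec k`. -/
theorem geometricallyIntegral_pullback_snd_of_isAlgClosed {k : Type u} [Field k] [IsAlgClosed k]
    {X T : Scheme.{u}} (f : X ⟶ Spec (CommRingCat.of k)) (t : T ⟶ Spec (CommRingCat.of k))
    [IsIntegral X] : GeometricallyIntegral (pullback.snd f t) := by
  have := geometricallyIntegral_of_isAlgClosed f
  infer_instance

/-- The base change `T ×ₖ X ⟶ T` of an integral scheme over an algebraically closed field `k`
is geometrically integral, for every `T ⟶ Spec k`. -/
theorem geometricallyIntegral_pullback_fst_of_isAlgClosed {k : Type u} [Field k] [IsAlgClosed k]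
    {X T : Scheme.{u}} (t : T ⟶ Spec (CommRingCat.of k)) (f : X ⟶ Spec (CommRingCat.of k))
    [IsIntegral X] : GeometricallyIntegral (pullback.fst t f) := by
  have := geometricallyIntegral_of_isAlgClosed f
  infer_instance

end Fermat.Agent.S25.PRES.H1190
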