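/-
S25 / PRES: an integral scheme over an algebraically closed field is geometrically connected.
(helper2111; consequence of `H1190.geometricallyIntegral_of_isAlgClosed`, helper1190.)
-/
import Fermat.Agent.S25.PRES.GeomIntegral

set_option autoImplicit false

universe u

namespace Fermat.Agent.S25.PRES

open CategoryTheory CategoryTheory.Limits AlgebraicGeometry

/-- An integral scheme over an algebraically closed field is geometrically connected. -/
theorem geometricallyConnected_of_isAlgClosed {k : Type u} [Field k] [IsAlgClosed k]
    {X : Scheme.{u}} (f : X ⟶ Spec (CommRingCat.of k)) [IsIntegral X] :
    GeometricallyConnected f := by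
  have hGI := H1190.geometricallyIntegral_of_isAlgClosed f
  rw [geometricallyIntegral_iff, geometrically_iff_of_commRing] at hGI
  rw [geometricallyConnected_iff, geometrically_iff_of_commRing]
  intro K _ _ Y fst snd h
  have : IsIntegral Y := hGI fst snd h
  infer_instance

end Fermat.Agent.S25.PRES
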