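/-
S25 / SC0 leaf P2b (pure algebra): Noether normalisation in dimension one.  A finitely
generated `k`-algebra which is a Dedekind domain and not a field is finite over `k[x]` for
some `x`.

Proof (helper5830): Noether normalisation gives a finite injective `g : k[X₁..X_s] → A`.
`s = 0` would make `A` a field; `s ≥ 2` gives, by going up along the chain of primes
`0 < ker (X₀ ↦ 0, Xᵢ ↦ T) < ker (Xᵢ ↦ 0)`, a chain of three primes in the Dedekind domain `A`.
So `s = 1` and `x = g X₀` works.
-/
import Mathlib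

set_option autoImplicit false

universe u

namespace Fermat.Agent.S25.PRES

namespace AlgNoether5830

/-- A domain which is finite over a polynomial ring in no variables over a field is a field. -/
theorem isField_of_finite_zero {k A : Type u} [Field k] [CommRing A] [IsDomain A] [Algebra k A]
    (g : MvPolynomial (Fin 0) k →ₐ[k] A) (hfin : g.Finite) : IsField A := by
  letI : Algebra (MvPolynomial (Fin 0) k) A := g.toRingHom.toAlgebra
  haveI : IsScalarTower k (MvPolynomial (Fin 0) k) A :=
    IsScalarTower.of_algebraMap_eq (fun c => (g.commutes c).symm)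
  haveI : Module.Finite (MvPolynomial (Fin 0) k) A := hfin
  have h1 : Module.Finite k (MvPolynomial (Fin 0) k) :=
    Module.Finite.equiv (MvPolynomial.isEmptyAlgEquiv k (Fin 0)).symm.toLinearEquiv
  have h2 : Module.Finite k A := Module.Finite.trans (MvPolynomial (Fin 0) k) A
  have h3 : Algebra.IsIntegral k A := inferInstance
  exact isField_of_isIntegral_of_isField' (Field.toIsField k)

/-- A Dedekind domain is not finite over a polynomial ring in at least two variables. -/
theorem false_of_finite_two {k A : Type u} [Field k] [CommRing A] [IsDomain A] [Algebra k A]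
    [IsDedekindDomain A] (t : ℕ) (g : MvPolynomial (Fin (t + 2)) k →ₐ[k] A)
    (hinj : Function.Injective g) (hfin : g.Finite) : False := by
  letI : Algebra (MvPolynomial (Fin (t + 2)) k) A := g.toRingHom.toAlgebra
  haveI : Module.Finite (MvPolynomial (Fin (t + 2)) k) A := hfin
  have hint : Algebra.IsIntegral (MvPolynomial (Fin (t + 2)) k) A := inferInstance
  have halg : ∀ p, algebraMap (MvPolynomial (Fin (t + 2)) k) A p = g p := fun _ => rfl
  let φ₁ : MvPolynomial (Fin (t + 2)) k →ₐ[k] Polynomial k :=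
    MvPolynomial.aeval (fun i : Fin (t + 2) => if i = 0 then 0 else Polynomial.X)
  let φ₂ : MvPolynomial (Fin (t + 2)) k →ₐ[k] k :=
    MvPolynomial.aeval (fun _ : Fin (t + 2) => (0 : k))
  have hφ : φ₂ = (Polynomial.aeval (0 : k)).comp φ₁ := by
    apply MvPolynomial.algHom_ext
    intro i
    simp only [φ₁, φ₂, MvPolynomial.aeval_X, AlgHom.comp_apply]
    split_ifs <;> simp
  have hP₁ : (RingHom.ker φ₁.toRingHom).IsPrime := RingHom.ker_isPrime _
  have hP₂ : (RingHom.ker φ₂.toRingHom).IsPrime := RingHom.ker_isPrime _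
  have hle : RingHom.ker φ₁.toRingHom ≤ RingHom.ker φ₂.toRingHom := by
    intro p hp
    rw [RingHom.mem_ker] at hp ⊢
    have hp' : φ₁ p = 0 := hp
    show φ₂ p = 0
    rw [hφ, AlgHom.comp_apply, hp', map_zero]
  have hX0 : (MvPolynomial.X 0 : MvPolynomial (Fin (t + 2)) k) ∈ RingHom.ker φ₁.toRingHom := by
    rw [RingHom.mem_ker]
    show φ₁ (MvPolynomial.X 0) = 0
    simp [φ₁]
  have hX1 : (MvPolynomial.X 1 : MvPolynomial (Fin (t + 2)) k) ∈ RingHom.ker φ₂.toRingHom := by
    rw [RingHom.mem_ker]
    show φ₂ (MvPolynomial.X 1) = 0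
    simp [φ₂]
  have hX1' : (MvPolynomial.X 1 : MvPolynomial (Fin (t + 2)) k) ∉ RingHom.ker φ₁.toRingHom := by
    rw [RingHom.mem_ker]
    show ¬ φ₁ (MvPolynomial.X 1) = 0
    have h10 : (1 : Fin (t + 2)) ≠ 0 := by
      intro h
      have := congrArg Fin.val h
      simp at this
    simp [φ₁, h10]
  have hbot : (⊥ : Ideal A).comap (algebraMap (MvPolynomial (Fin (t + 2)) k) A) = ⊥ := by
    ext p
    simp only [Ideal.mem_comap, Ideal.mem_bot, halg]
    exact ⟨fun h => hinj (by rw [h, map_zero]), fun h => by rw [h, map_zero]⟩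
  obtain ⟨Q₁, -, hQ₁prime, hQ₁⟩ := Ideal.exists_ideal_over_prime_of_isIntegral
    (RingHom.ker φ₁.toRingHom) (⊥ : Ideal A) (by rw [hbot]; exact bot_le)
  obtain ⟨Q₂, hQ₁₂, hQ₂prime, hQ₂⟩ := Ideal.exists_ideal_over_prime_of_isIntegral
    (RingHom.ker φ₂.toRingHom) Q₁ (by rw [hQ₁]; exact hle)
  have hQ₁ne : Q₁ ≠ ⊥ := by
    rintro rfl
    rw [hbot] at hQ₁
    have h0 : (MvPolynomial.X 0 : MvPolynomial (Fin (t + 2)) k) ∈ (⊥ : Ideal _) := hQ₁ ▸ hX0
    have h1 : (MvPolynomial.X 0 : MvPolynomial (Fin (t + 2)) k) = 0 := by simpa using h0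
    exact MvPolynomial.X_ne_zero (R := k) (0 : Fin (t + 2)) h1
  have hmax : Q₁.IsMaximal := hQ₁prime.isMaximal hQ₁ne
  have heq : Q₁ = Q₂ := hmax.eq_of_le hQ₂prime.ne_top hQ₁₂
  rw [← heq, hQ₁] at hQ₂
  exact hX1' (hQ₂ ▸ hX1)

/-- The case of one variable. -/
theorem finite_adjoin_of_finite_one {k A : Type u} [Field k] [CommRing A] [Algebra k A]
    (g : MvPolynomial (Fin 1) k →ₐ[k] A) (hfin : g.Finite) :
    Module.Finite (Algebra.adjoin k ({g (MvPolynomial.X 0)} : Set A)) A := by
  have hmem : ∀ p, g p ∈ Algebra.adjoin k ({g (MvPolynomial.X 0)} : Set A) := by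
    intro p
    induction p using MvPolynomial.induction_on with
    | C c =>
      rw [MvPolynomial.algHom_C]
      exact Subalgebra.algebraMap_mem _ c
    | add p q hp hq =>
      rw [map_add]
      exact Subalgebra.add_mem _ hp hq
    | mul_X p i hp =>
      rw [map_mul, Subsingleton.elim i 0]
      exact Subalgebra.mul_mem _ hp (Algebra.subset_adjoin rfl)
  letI : Algebra (MvPolynomial (Fin 1) k) (Algebra.adjoin k ({g (MvPolynomial.X 0)} : Set A)) :=
    (g.codRestrict _ hmem).toRingHom.toAlgebra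
  letI : Algebra (MvPolynomial (Fin 1) k) A := g.toRingHom.toAlgebra
  haveI : IsScalarTower (MvPolynomial (Fin 1) k)
      (Algebra.adjoin k ({g (MvPolynomial.X 0)} : Set A)) A :=
    IsScalarTower.of_algebraMap_eq (fun _ => rfl)
  haveI : Module.Finite (MvPolynomial (Fin 1) k) A := hfin
  exact Module.Finite.of_restrictScalars_finite (MvPolynomial (Fin 1) k) _ A

end AlgNoether5830

open AlgNoether5830 in
theorem exists_finite_adjoin_singleton {k A : Type u} [Field k] [CommRing A] [IsDomain A]
    [Algebra k A] [Algebra.FiniteType k A] [IsDedekindDomain A] (hA : ¬ IsField A) :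
    ∃ x : A, Module.Finite (Algebra.adjoin k ({x} : Set A)) A := by
  obtain ⟨s, g, hinj, hfin⟩ := exists_finite_inj_algHom_of_fg k A
  match s, g, hinj, hfin with
  | 0, g, _, hfin => exact absurd (isField_of_finite_zero g hfin) hA
  | 1, g, _, hfin => exact ⟨g (MvPolynomial.X 0), finite_adjoin_of_finite_one g hfin⟩
  | t + 2, g, hinj, hfin => exact (false_of_finite_two t g hinj hfin).elim

end Fermat.Agent.S25.PRES
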