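/-
S25 / SC0 leaf P3: topology of the curve.  Every point other than the generic point is closed,
and the complement of a nonempty open subset is finite.
(Proof: `C` is quasi-compact, covered by finitely many affine opens `Spec B`, `B` Dedekind by
P2a + P2c; a proper closed subset of `Spec B` is a finite set of maximal ideals.)

Leaf proved by helper9330 (statements of helper7345's sub-skeleton unchanged).  Auxiliary
declarations live in `Fermat.Agent.S25.PRES.Closed9330`.
-/
import Fermat.Agent.S25.PRES.Defs
import Fermat.Agent.S25.PRES.AlgDed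
import Fermat.Agent.S25.PRES.AffAlg

set_option autoImplicit false

universe u

namespace Fermat.Agent.S25.PRES

open CategoryTheory AlgebraicGeometry NeronModelInfra

namespace Closed9330

variable {k : Type u} [Field k] [IsAlgClosed k] {C : Scheme.{u}}
  (c : C ⟶ Spec (CommRingCat.of k)) [IsProper c] [SmoothOfRelativeDimension 1 c] [IsIntegral C]

include c in
/-- The coordinate ring of a nonempty affine open of the curve is a Dedekind domain. -/
theorem isDedekindDomain_sections {V : C.Opens} (hV : IsAffineOpen V) [Nonempty V] :
    IsDedekindDomain Γ(C, V) := by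
  let _ := algOpen c V
  have : Algebra.FiniteType k Γ(C, V) := finiteType_algOpen c hV
  exact (isDedekindDomain_of_locally_isStandardSmooth (k := k) (A := Γ(C, V))
    (locally_isStandardSmooth_structHom c hV)).1

omit [IsAlgClosed k] [SmoothOfRelativeDimension 1 c] [IsIntegral C] in
include c in
/-- The curve is a Noetherian scheme. -/
theorem isNoetherian_curve : IsNoetherian C := by
  have : IsLocallyNoetherian C := LocallyOfFiniteType.isLocallyNoetherian c
  have : CompactSpace C := QuasiCompact.compactSpace_of_compactSpace c
  exact { }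

omit [IsAlgClosed k] [IsProper c] [SmoothOfRelativeDimension 1 c] in
/-- The generic point lies in every nonempty open subset. -/
theorem genericPoint_mem_of_nonempty (U : C.Opens) (hU : (U : Set C).Nonempty) :
    genericPoint C ∈ U :=
  ((genericPoint_spec C).mem_open_set_iff U.isOpen).mpr (by simpa using hU)

end Closed9330

variable {k : Type u} [Field k] [IsAlgClosed k] {C : Scheme.{u}}
  (c : C ⟶ Spec (CommRingCat.of k)) [IsProper c] [SmoothOfRelativeDimension 1 c] [IsIntegral C]

include c in
theorem isClosed_singleton_of_ne_genericPoint (p : C) (hp : p ≠ genericPoint C) :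
    IsClosed ({p} : Set C) := by
  rw [TopologicalSpace.IsOpenCover.isClosed_iff_coe_preimage (iSup_affineOpens_eq_top C)]
  intro V
  by_cases hpV : p ∈ (V : C.Opens)
  · have : Nonempty (V : C.Opens) := ⟨⟨p, hpV⟩⟩
    have hV : IsAffineOpen (V : C.Opens) := V.2
    have : IsDedekindDomain Γ(C, (V : C.Opens)) := Closed9330.isDedekindDomain_sections c hV
    -- the prime ideal of `p`
    set q : PrimeSpectrum Γ(C, (V : C.Opens)) := hV.primeIdealOf ⟨p, hpV⟩ with hq
    have hinj : ∀ x y : (V : C.Opens), hV.primeIdealOf x = hV.primeIdealOf y → x = y := by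
      intro x y hxy
      apply Subtype.ext
      rw [← hV.fromSpec_primeIdealOf x, ← hV.fromSpec_primeIdealOf y, hxy]
    have hq_ne : q.asIdeal ≠ ⊥ := by
      intro h0
      apply hp
      have h1 : q = hV.primeIdealOf ⟨genericPoint C,
          ((genericPoint_spec C).mem_open_set_iff (V : C.Opens).isOpen).mpr
            (by simpa using ‹Nonempty (V : C.Opens)›)⟩ := by
        rw [hV.primeIdealOf_genericPoint, genericPoint_eq_bot_of_affine]
        exact PrimeSpectrum.ext h0
      exact congrArg Subtype.val (hinj _ _ h1)
    have hq_max : q.asIdeal.IsMaximal := q.isPrime.isMaximal hq_ne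
    have hq_closed : IsClosed ({q} : Set (PrimeSpectrum Γ(C, (V : C.Opens)))) :=
      (PrimeSpectrum.isClosed_singleton_iff_isMaximal q).mpr hq_max
    have hcont : Continuous (fun x : (V : C.Opens) => hV.primeIdealOf x) :=
      hV.isoSpec.hom.continuous
    have hcl := hq_closed.preimage hcont
    convert hcl using 1
    ext x
    simp only [Set.mem_preimage, Set.mem_singleton_iff]
    constructor
    · intro hx
      have hx' : x = ⟨p, hpV⟩ := Subtype.ext hx
      rw [hx']
    · intro hx
      exact congrArg Subtype.val (hinj x ⟨p, hpV⟩ hx)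
  · convert isClosed_empty using 1
    ext x
    simp only [Set.mem_preimage, Set.mem_singleton_iff, Set.mem_empty_iff_false, iff_false]
    intro hx
    exact hpV (hx ▸ x.2)

include c in
theorem finite_compl_of_nonempty (U : C.Opens) (hU : (U : Set C).Nonempty) :
    ((U : Set C)ᶜ).Finite := by
  have : IsNoetherian C := Closed9330.isNoetherian_curve c
  obtain ⟨S, hSf, hSc, hSi, hSU⟩ :=
    TopologicalSpace.NoetherianSpace.exists_finite_set_isClosed_irreducible
      (U.isOpen.isClosed_compl)
  rw [hSU]
  refine hSf.sUnion ?_
  intro t ht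
  obtain ⟨z, hz⟩ := QuasiSober.sober (hSi t ht) (hSc t ht)
  have hzt : z ∈ t := hz.mem
  have hzU : z ∈ (U : Set C)ᶜ := hSU ▸ Set.mem_sUnion_of_mem hzt ht
  have hz_ne : z ≠ genericPoint C := by
    intro h
    exact hzU (h ▸ Closed9330.genericPoint_mem_of_nonempty U hU)
  have hcl : IsClosed ({z} : Set C) := isClosed_singleton_of_ne_genericPoint c z hz_ne
  have : t = {z} := by
    rw [← hz.def, hcl.closure_eq]
  rw [this]
  exact Set.finite_singleton z

end Fermat.Agent.S25.PRES
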