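/-
S25 / SC0 (Layer 0: presentation of the curve), piece P4 — helper2090.

The second chart of a proper curve is finite over the affine line:
if `U₁` is an affine open of `C`, `x ∈ Γ(C, U₁)`, `U₂` an open with `U₁ ∪ U₂ = C`,
`U₁ ∩ U₂ = D(x)` and `g ∈ Γ(C, U₂)` with `x g = 1` on `U₁ ∩ U₂`, then the graph of `g` is a closed
subscheme of `𝔸¹_C`, hence `g : U₂ ⟶ 𝔸¹_k` is proper; if moreover all proper closed subsets of `C`
are finite and `g` is transcendental over `k`, then `g : U₂ ⟶ 𝔸¹_k` is finite (Zariski's main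
theorem), so `U₂` is affine and `Γ(C, U₂)` is a finite `k[g]`-module.

Mathlib only.  Main statements: `isClosedImmersion_graphHom`, `isFinite_lineHom`,
`second_chart_finite`.
-/
import Mathlib

set_option autoImplicit false

universe u

open CategoryTheory CategoryTheory.Limits AlgebraicGeometry TopologicalSpace

namespace Fermat.Agent.S25.PRES.H2090

variable {C : Scheme.{u}}

/-- The graph morphism of a section `g` over an open `U`, into the affine line over `C`. -/
noncomputable def graphHom (U : C.Opens) (g : Γ(C, U)) : (U : Scheme.{u}) ⟶ 𝔸(PUnit.{u+1}; C) :=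
  AffineSpace.homOfVector U.ι (fun _ => U.topIso.inv g)

lemma graphHom_over (U : C.Opens) (g : Γ(C, U)) :
    graphHom U g ≫ (𝔸(PUnit.{u+1}; C) ↘ C) = U.ι :=
  AffineSpace.homOfVector_over _ _

lemma graphHom_appTop_coord (U : C.Opens) (g : Γ(C, U)) :
    (graphHom U g).appTop (AffineSpace.coord C PUnit.unit) = U.topIso.inv g :=
  AffineSpace.homOfVector_appTop_coord _ _ _

lemma isClosedImmersion_morphismRestrict_of_surjective {X Y : Scheme.{u}} (f : X ⟶ Y)
    (V : Y.Opens) (hV : IsAffineOpen V) (hfV : IsAffineOpen (f ⁻¹ᵁ V))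
    (h : Function.Surjective (f.app V)) : IsClosedImmersion (f ∣_ V) := by
  have : IsAffine V.toScheme := hV
  have : IsAffine (f ⁻¹ᵁ V).toScheme := hfV
  apply IsClosedImmersion.of_surjective_of_isAffine
  rw [morphismRestrict_appTop]
  have key : ∀ V' : Y.Opens, V' = V → Function.Surjective (f.app V') := by
    rintro _ rfl; exact h
  have h1 := key _ V.ι_image_top
  intro y
  obtain ⟨z, hz⟩ := (ConcreteCategory.bijective_of_isIso
    (X.presheaf.map (eqToHom (image_morphismRestrict_preimage f V ⊤)).op)).surjective y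
  obtain ⟨w, rfl⟩ := h1 z
  exact ⟨w, hz⟩

lemma isIso_ι_of_eq_top {X : Scheme.{u}} (W : X.Opens) (h : W = ⊤) : IsIso W.ι := by
  subst h; rw [← Scheme.topIso_hom]; infer_instance

lemma isIso_ι_morphismRestrict_self (U : C.Opens) : IsIso (U.ι ∣_ U) := by
  have h : U.ι ∣_ U = (U.ι ⁻¹ᵁ U).ι := by
    rw [← cancel_mono U.ι, morphismRestrict_ι]
  rw [h]
  exact isIso_ι_of_eq_top _ U.ι_preimage_self


lemma presheaf_map_congr_apply {X : Scheme.{u}} {U V : X.Opensᵒᵖ} (i j : U ⟶ V)
    (a : X.presheaf.obj U) : X.presheaf.map i a = X.presheaf.map j a := by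
  rw [Subsingleton.elim i j]

lemma presheaf_map_map_apply {X : Scheme.{u}} {U V W : X.Opensᵒᵖ} (i : U ⟶ V) (j : V ⟶ W)
    (k : U ⟶ W) (a : X.presheaf.obj U) :
    X.presheaf.map j (X.presheaf.map i a) = X.presheaf.map k a := by
  rw [← CommRingCat.comp_apply, ← Functor.map_comp, Subsingleton.elim (i ≫ j) k]

section graph

variable (U₁ U₂ : C.Opens) (x : Γ(C, U₁)) (g : Γ(C, U₂))

/-- Key surjectivity: over the affine chart `U₁`, the graph of `g = 1/x` is cut out by `x T = 1`. -/
lemma graphHom_app_surjective (hU₁ : IsAffineOpen U₁) (h₁₂ : U₁ ⊓ U₂ = C.basicOpen x)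
    (hxg : C.presheaf.map (homOfLE inf_le_left).op x *
      C.presheaf.map (homOfLE inf_le_right).op g = 1) :
    Function.Surjective ((graphHom U₂ g).app ((𝔸(PUnit.{u+1}; C) ↘ C) ⁻¹ᵁ U₁)) := by
  set π := (𝔸(PUnit.{u+1}; C) ↘ C) with hπ
  set Γg := graphHom U₂ g with hΓg
  -- the open of `U₂` we land in, and its image in `C`
  set W : (U₂ : Scheme.{u}).Opens := Γg ⁻¹ᵁ π ⁻¹ᵁ U₁ with hW
  have hWι : W = U₂.ι ⁻¹ᵁ U₁ := by
    rw [hW, ← Scheme.Hom.comp_preimage, hΓg, hπ, graphHom_over]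
  have hW' : U₂.ι ''ᵁ W = C.basicOpen x := by
    rw [hWι, Scheme.Hom.image_preimage_eq_opensRange_inf, Scheme.Opens.opensRange_ι, inf_comm, h₁₂]
  have hW₁ : U₂.ι ''ᵁ W ≤ U₁ := hW' ▸ C.basicOpen_le x
  have hW₂ : U₂.ι ''ᵁ W ≤ U₂ := U₂.ι_image_le W
  have hloc := hU₁.isLocalization_of_eq_basicOpen x (homOfLE hW₁) hW'
  let ρ₁ : Γ(C, U₁) ⟶ Γ(C, U₂.ι ''ᵁ W) := C.presheaf.map (homOfLE hW₁).op
  let ρ₂ : Γ(C, U₂) ⟶ Γ(C, U₂.ι ''ᵁ W) := C.presheaf.map (homOfLE hW₂).op
  have hρ : ρ₁ x * ρ₂ g = 1 := by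
    have := congrArg (C.presheaf.map (homOfLE (le_inf hW₁ hW₂)).op) hxg
    rw [map_mul, map_one, presheaf_map_map_apply _ _ (homOfLE hW₁).op,
      presheaf_map_map_apply _ _ (homOfLE hW₂).op] at this
    exact this
  have e1 : ∀ a : Γ(C, U₁), Γg.app (π ⁻¹ᵁ U₁) (π.app U₁ a) = ρ₁ a := by
    intro a
    have h := Scheme.Hom.comp_app Γg π U₁
    have h' := Scheme.Hom.congr_app (graphHom_over U₂ g) U₁
    have h3 : Γg.app (π ⁻¹ᵁ U₁) (π.app U₁ a) = (Γg ≫ π).app U₁ a := by rw [h]; rfl
    rw [h3, h']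
    exact presheaf_map_map_apply (X := C) _ _ _ a
  have e2 : Γg.app (π ⁻¹ᵁ U₁) ((𝔸(PUnit.{u+1}; C)).presheaf.map (homOfLE le_top).op
      (AffineSpace.coord C PUnit.unit)) = ρ₂ g := by
    have h := Γg.naturality (homOfLE (le_top : π ⁻¹ᵁ U₁ ≤ ⊤)).op
    rw [← CommRingCat.comp_apply, h, CommRingCat.comp_apply]
    erw [graphHom_appTop_coord]
    exact presheaf_map_map_apply (X := C) _ _ _ g
  intro (r : Γ(C, U₂.ι ''ᵁ W))
  obtain ⟨⟨a, ⟨_, m, rfl⟩⟩, hr⟩ := @IsLocalization.surj _ _ (Submonoid.powers x)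
    Γ(C, U₂.ι ''ᵁ W) _ (C.presheaf.map (homOfLE hW₁).op).hom.toAlgebra hloc r
  refine ⟨π.app U₁ a * ((𝔸(PUnit.{u+1}; C)).presheaf.map (homOfLE le_top).op
      (AffineSpace.coord C PUnit.unit)) ^ m, ?_⟩
  rw [map_mul, map_pow, e1, e2]
  have hr' : r * ρ₁ x ^ m = ρ₁ a := by
    simpa [RingHom.algebraMap_toAlgebra, ρ₁] using hr
  calc ρ₁ a * ρ₂ g ^ m = r * (ρ₁ x * ρ₂ g) ^ m := by rw [← hr', mul_pow]; ring
    _ = r := by rw [hρ, one_pow, mul_one]

/-- The graph of `g = 1/x` is closed in the affine line over `C`. -/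
theorem isClosedImmersion_graphHom (hU₁ : IsAffineOpen U₁) (hcov : U₁ ⊔ U₂ = ⊤)
    (h₁₂ : U₁ ⊓ U₂ = C.basicOpen x)
    (hxg : C.presheaf.map (homOfLE inf_le_left).op x *
      C.presheaf.map (homOfLE inf_le_right).op g = 1) :
    IsClosedImmersion (graphHom U₂ g) := by
  set π := (𝔸(PUnit.{u+1}; C) ↘ C) with hπ
  let V : Bool → (𝔸(PUnit.{u+1}; C)).Opens := fun b => cond b (π ⁻¹ᵁ U₁) (π ⁻¹ᵁ U₂)
  have hV : iSup V = ⊤ := by
    rw [iSup_bool_eq]
    show π ⁻¹ᵁ U₁ ⊔ π ⁻¹ᵁ U₂ = ⊤
    rw [← Scheme.Hom.preimage_sup, hcov]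
    rfl
  rw [IsZariskiLocalAtTarget.iff_of_iSup_eq_top (P := @IsClosedImmersion) V hV]
  rintro (_ | _)
  · show IsClosedImmersion (graphHom U₂ g ∣_ π ⁻¹ᵁ U₂)
    have h1 : IsClosedImmersion ((graphHom U₂ g ≫ π) ∣_ U₂) := by
      rw [hπ, graphHom_over]
      have := isIso_ι_morphismRestrict_self U₂
      infer_instance
    rw [morphismRestrict_comp] at h1
    exact @IsClosedImmersion.of_comp _ _ _ _ (π ∣_ U₂) h1 inferInstance
  · show IsClosedImmersion (graphHom U₂ g ∣_ π ⁻¹ᵁ U₁)
    apply isClosedImmersion_morphismRestrict_of_surjective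
    · exact hU₁.preimage π
    · have hWι : graphHom U₂ g ⁻¹ᵁ π ⁻¹ᵁ U₁ = U₂.ι ⁻¹ᵁ U₁ := by
        rw [← Scheme.Hom.comp_preimage, hπ, graphHom_over]
      rw [hWι, ← U₂.ι.isAffineOpen_iff_of_isOpenImmersion,
        Scheme.Hom.image_preimage_eq_opensRange_inf, Scheme.Opens.opensRange_ι, inf_comm, h₁₂]
      exact hU₁.basicOpen x
    · exact graphHom_app_surjective U₁ U₂ x g hU₁ h₁₂ hxg

end graph

section line

variable {k : Type u} [Field k] (c : C ⟶ Spec (CommRingCat.of k))

/-- The morphism `U ⟶ 𝔸¹_k` defined by a section `g` over `U`. -/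
noncomputable def lineHom (U : C.Opens) (g : Γ(C, U)) :
    (U : Scheme.{u}) ⟶ 𝔸(PUnit.{u+1}; Spec (CommRingCat.of k)) :=
  graphHom U g ≫ AffineSpace.map PUnit.{u+1} c

lemma isProper_lineHom [IsProper c] (U : C.Opens) (g : Γ(C, U))
    (h : IsClosedImmersion (graphHom U g)) : IsProper (lineHom c U g) := by
  have : IsProper (AffineSpace.map PUnit.{u+1} c) :=
    MorphismProperty.of_isPullback (AffineSpace.isPullback_map c).flip inferInstance
  unfold lineHom
  infer_instance

lemma lineHom_appTop_coord (U : C.Opens) (g : Γ(C, U)) :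
    (lineHom c U g).appTop (AffineSpace.coord (Spec (CommRingCat.of k)) PUnit.unit) =
      U.topIso.inv g := by
  unfold lineHom
  rw [Scheme.Hom.comp_appTop, CommRingCat.comp_apply, AffineSpace.map_appTop_coord,
    graphHom_appTop_coord]

lemma lineHom_over (U : C.Opens) (g : Γ(C, U)) :
    lineHom c U g ≫ (𝔸(PUnit.{u+1}; Spec (CommRingCat.of k)) ↘ Spec (CommRingCat.of k)) =
      U.ι ≫ c := by
  unfold lineHom
  rw [Category.assoc, AffineSpace.map_over, ← Category.assoc, graphHom_over]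

end line

section quasiFinite

/-- "Proper closed subsets are finite" passes to open subschemes. -/
lemma finite_of_isClosed_of_ne_univ_opens
    (hfin : ∀ Z : Set C, IsClosed Z → Z ≠ Set.univ → Z.Finite) (U : C.Opens)
    (Z : Set (U : Scheme.{u})) (hZ : IsClosed Z) (hne : Z ≠ Set.univ) : Z.Finite := by
  obtain ⟨p, hp⟩ := (Set.ne_univ_iff_exists_notMem Z).mp hne
  have hemb : Topology.IsOpenEmbedding U.ι := U.ι.isOpenEmbedding
  have hZeq : Z = U.ι ⁻¹' closure (U.ι '' Z) := by
    rw [← hemb.isInducing.closure_eq_preimage_closure_image, hZ.closure_eq]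
  have h1 : closure (U.ι '' Z) ≠ Set.univ := by
    intro h
    apply hp
    rw [hZeq, h]
    exact Set.mem_univ _
  have h2 := hfin _ isClosed_closure h1
  rw [hZeq]
  exact h2.preimage hemb.injective.injOn

/-- A fibre over a point where a function with nonzero pullback vanishes is finite. -/
lemma finite_preimage_of_notMem_basicOpen {X L : Scheme.{u}} [IsReduced X] (f : X ⟶ L)
    (hX : ∀ Z : Set X, IsClosed Z → Z ≠ Set.univ → Z.Finite)
    (s : Γ(L, ⊤)) (hs : f.appTop s ≠ 0) (y : L) (hy : y ∉ L.basicOpen s) :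
    (f ⁻¹' {y}).Finite := by
  refine (hX ((X.basicOpen (f.appTop s) : Set X)ᶜ) (X.basicOpen _).isOpen.isClosed_compl
    ?_).subset ?_
  · intro h
    apply hs
    rw [← AlgebraicGeometry.basicOpen_eq_bot_iff]
    ext p
    have : p ∈ ((X.basicOpen (f.appTop s) : Set X)ᶜ) := h ▸ Set.mem_univ p
    simpa using this
  · intro p hp hmem
    rw [Set.mem_preimage, Set.mem_singleton_iff] at hp
    have hmem' : p ∈ f ⁻¹ᵁ L.basicOpen s := by
      rw [Scheme.preimage_basicOpen_top]; exact hmem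
    exact hy (hp ▸ hmem')

/-- A proper morphism from a reduced scheme all of whose proper closed subsets are finite to
an affine scheme is quasi-finite, as soon as it is injective on global functions and some
nonzero function on the target has a zero. -/
theorem locallyQuasiFinite_of_finite_closed {X L : Scheme.{u}} [IsReduced X] [IsAffine L]
    (f : X ⟶ L) [IsProper f]
    (hX : ∀ Z : Set X, IsClosed Z → Z ≠ Set.univ → Z.Finite)
    (hinj : ∀ s : Γ(L, ⊤), f.appTop s = 0 → s = 0)
    (y₀ : L) (s₀ : Γ(L, ⊤)) (hs₀ : s₀ ≠ 0) (hy₀ : y₀ ∉ L.basicOpen s₀) :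
    LocallyQuasiFinite f := by
  apply LocallyQuasiFinite.of_finite_preimage_singleton
  have h0 : (f ⁻¹' {y₀}).Finite :=
    finite_preimage_of_notMem_basicOpen f hX s₀ (fun h => hs₀ (hinj _ h)) y₀ hy₀
  obtain ⟨V, hyV, hV⟩ := exists_isFinite_morphismRestrict_of_finite_preimage_singleton f y₀ h0
  intro y
  by_cases hy : y ∈ V
  · have hfin := (f ∣_ V).finite_preimage_singleton ⟨y, hy⟩
    refine (hfin.image (f ⁻¹ᵁ V).ι).subset ?_
    intro p hp
    rw [Set.mem_preimage, Set.mem_singleton_iff] at hp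
    have hpV : p ∈ f ⁻¹ᵁ V := by
      show f p ∈ V
      rw [hp]; exact hy
    refine ⟨⟨p, hpV⟩, ?_, rfl⟩
    rw [Set.mem_preimage, Set.mem_singleton_iff]
    apply Subtype.ext
    rw [morphismRestrict_base_coe]
    exact hp
  · obtain ⟨s, hsV, hys⟩ := (isAffineOpen_top L).exists_basicOpen_le ⟨y₀, hyV⟩ trivial
    have hs : s ≠ 0 := by
      rintro rfl
      simp at hys
    exact finite_preimage_of_notMem_basicOpen f hX s (fun h => hs (hinj _ h)) y
      (fun h => hy (hsV h))

end quasiFinite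

section final

variable (k : Type u) [Field k]

/-- The coordinate of the affine line over a field has a zero. -/
lemma exists_notMem_basicOpen_coord :
    ∃ y₀ : 𝔸(PUnit.{u+1}; Spec (CommRingCat.of k)),
      y₀ ∉ (𝔸(PUnit.{u+1}; Spec (CommRingCat.of k))).basicOpen
        (AffineSpace.coord (Spec (CommRingCat.of k)) PUnit.unit) := by
  let z : Spec (CommRingCat.of k) ⟶ 𝔸(PUnit.{u+1}; Spec (CommRingCat.of k)) :=
    AffineSpace.homOfVector (𝟙 _) (fun _ => 0)
  obtain ⟨p⟩ : Nonempty (Spec (CommRingCat.of k)) := inferInstance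
  refine ⟨z p, fun h => ?_⟩
  have h' : p ∈ z ⁻¹ᵁ (𝔸(PUnit.{u+1}; Spec (CommRingCat.of k))).basicOpen
      (AffineSpace.coord (Spec (CommRingCat.of k)) PUnit.unit) := h
  rw [Scheme.preimage_basicOpen_top, AffineSpace.homOfVector_appTop_coord,
    Scheme.basicOpen_zero] at h'
  exact h'

/-- The coordinate of the affine line over a field is not zero. -/
lemma coord_ne_zero :
    AffineSpace.coord (Spec (CommRingCat.of k)) PUnit.unit ≠ 0 := by
  intro h
  have h1 := AffineSpace.homOfVector_appTop_coord (𝟙 (Spec (CommRingCat.of k)))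
    (fun _ : PUnit.{u+1} => (1 : Γ(Spec (CommRingCat.of k), ⊤))) PUnit.unit
  rw [h, map_zero] at h1
  exact zero_ne_one h1

variable {k} (c : C ⟶ Spec (CommRingCat.of k))

/-- **P4**: the second chart of a curve is finite over the affine line. -/
theorem isFinite_lineHom [IsProper c] [IsReduced C] (U₁ U₂ : C.Opens) (x : Γ(C, U₁))
    (g : Γ(C, U₂)) (hU₁ : IsAffineOpen U₁) (hcov : U₁ ⊔ U₂ = ⊤)
    (h₁₂ : U₁ ⊓ U₂ = C.basicOpen x)
    (hxg : C.presheaf.map (homOfLE inf_le_left).op x *
      C.presheaf.map (homOfLE inf_le_right).op g = 1)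
    (hfin : ∀ Z : Set C, IsClosed Z → Z ≠ Set.univ → Z.Finite)
    (hinj : Function.Injective (lineHom c U₂ g).appTop) :
    IsFinite (lineHom c U₂ g) := by
  have hcl := isClosedImmersion_graphHom U₁ U₂ x g hU₁ hcov h₁₂ hxg
  have hprop := isProper_lineHom c U₂ g hcl
  obtain ⟨y₀, hy₀⟩ := exists_notMem_basicOpen_coord k
  have hqf : LocallyQuasiFinite (lineHom c U₂ g) :=
    locallyQuasiFinite_of_finite_closed (lineHom c U₂ g)
      (finite_of_isClosed_of_ne_univ_opens hfin U₂)
      (fun s hs => hinj (hs.trans (map_zero _).symm)) y₀ _ (coord_ne_zero k) hy₀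
  exact IsFinite.of_isProper_of_locallyQuasiFinite _

theorem isAffineOpen_of_isFinite_lineHom (U : C.Opens) (g : Γ(C, U))
    (h : IsFinite (lineHom c U g)) : IsAffineOpen U := by
  have : IsAffine (U : Scheme.{u}) := isAffine_of_isAffineHom (lineHom c U g)
  exact this

/-- The structure map `k → Γ(C, U)` induced by `c`. -/
noncomputable def structureHom (U : C.Opens) : k →+* Γ(C, U) :=
  ((Scheme.ΓSpecIso (CommRingCat.of k)).inv ≫ c.appLE ⊤ U le_top).hom

/-- Compatibility of `lineHom` with the structure maps. -/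
lemma topIso_lineHom_appTop_over (U : C.Opens) (g : Γ(C, U))
    (r : Γ(Spec (CommRingCat.of k), ⊤)) :
    U.topIso.hom ((lineHom c U g).appTop
      ((𝔸(PUnit.{u+1}; Spec (CommRingCat.of k)) ↘ Spec (CommRingCat.of k)).appTop r)) =
      c.appLE ⊤ U le_top r := by
  have h := congrArg (fun f => f.appTop) (lineHom_over c U g)
  simp only [Scheme.Hom.comp_appTop] at h
  have h2 : (lineHom c U g).appTop
      ((𝔸(PUnit.{u+1}; Spec (CommRingCat.of k)) ↘ Spec (CommRingCat.of k)).appTop r) =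
      U.ι.appTop (c.appTop r) := by
    rw [← CommRingCat.comp_apply, ← CommRingCat.comp_apply, h]
  rw [h2]
  exact presheaf_map_map_apply (X := C) _ _ _ (c.appTop r)

/-- **P4, ring form**: `Γ(C, U)` is a finite module over `k[g]`. -/
theorem finite_adjoin_of_isFinite_lineHom (U : C.Opens) (g : Γ(C, U)) [Algebra k Γ(C, U)]
    (halg : algebraMap k Γ(C, U) = structureHom c U) (h : IsFinite (lineHom c U g)) :
    Module.Finite (Algebra.adjoin k ({g} : Set Γ(C, U))) Γ(C, U) := by
  set L := 𝔸(PUnit.{u+1}; Spec (CommRingCat.of k)) with hL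
  set S := Algebra.adjoin k ({g} : Set Γ(C, U)) with hS
  have hfin : (lineHom c U g).appTop.hom.Finite :=
    ((HasAffineProperty.iff_of_isAffine (P := @IsFinite)).mp h).2
  let Φ : Γ(L, ⊤) →+* Γ(C, U) := ((lineHom c U g).appTop ≫ U.topIso.hom).hom
  have hΦ : Φ.Finite := by
    have h1 : (U.topIso.hom.hom).Finite :=
      RingHom.Finite.of_surjective _ (ConcreteCategory.bijective_of_isIso U.topIso.hom).surjective
    exact h1.comp hfin
  -- the polynomial presentation of `Γ(L, ⊤)`
  let E := MvPolynomial.eval₂Hom ((L ↘ Spec (CommRingCat.of k)).appTop).hom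
    (AffineSpace.coord (Spec (CommRingCat.of k)) (n := PUnit.{u+1}))
  have hE : Function.Surjective E := by
    have h1 := AffineSpace.isoOfIsAffine_hom_appTop (n := PUnit.{u+1})
      (S := Spec (CommRingCat.of k))
    have h2 : CommRingCat.ofHom E = (Scheme.ΓSpecIso _).inv ≫
        (AffineSpace.isoOfIsAffine PUnit.{u+1} (Spec (CommRingCat.of k))).hom.appTop := by
      rw [h1, Iso.inv_hom_id_assoc]
    have hi0 : IsIso (AffineSpace.isoOfIsAffine PUnit.{u+1} (Spec (CommRingCat.of k))).hom :=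
      inferInstance
    have hi : IsIso ((AffineSpace.isoOfIsAffine PUnit.{u+1}
        (Spec (CommRingCat.of k))).hom.app ⊤) := inferInstance
    have : IsIso (CommRingCat.ofHom E) := by
      rw [h2]; exact @IsIso.comp_isIso _ _ _ _ _ _ _ inferInstance hi
    exact (ConcreteCategory.bijective_of_isIso (CommRingCat.ofHom E)).surjective
  have hmem : ∀ s : Γ(L, ⊤), Φ s ∈ S := by
    intro s
    obtain ⟨p, rfl⟩ := hE s
    induction p using MvPolynomial.induction_on with
    | C r =>
      have h1 : Φ (E (MvPolynomial.C r)) = c.appLE ⊤ U le_top r := by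
        simp only [E, MvPolynomial.coe_eval₂Hom, MvPolynomial.eval₂_C]
        exact topIso_lineHom_appTop_over c U g r
      have h2 : c.appLE ⊤ U le_top r =
          algebraMap k Γ(C, U) ((Scheme.ΓSpecIso (CommRingCat.of k)).hom r) := by
        rw [halg]
        show c.appLE ⊤ U le_top r = c.appLE ⊤ U le_top
          ((Scheme.ΓSpecIso (CommRingCat.of k)).inv ((Scheme.ΓSpecIso (CommRingCat.of k)).hom r))
        rw [← CommRingCat.comp_apply (Scheme.ΓSpecIso (CommRingCat.of k)).hom, Iso.hom_inv_id,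
          CommRingCat.id_apply]
      rw [h1, h2]
      exact Subalgebra.algebraMap_mem S _
    | add p q hp hq =>
      rw [map_add, map_add]
      exact S.add_mem hp hq
    | mul_X p i hp =>
      rw [map_mul, map_mul]
      refine S.mul_mem hp ?_
      have h1 : Φ (E (MvPolynomial.X i)) = g := by
        simp only [E, MvPolynomial.coe_eval₂Hom, MvPolynomial.eval₂_X]
        show U.topIso.hom ((lineHom c U g).appTop _) = g
        rw [lineHom_appTop_coord, ← CommRingCat.comp_apply, Iso.inv_hom_id, CommRingCat.id_apply]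
      rw [h1]
      exact Algebra.subset_adjoin (Set.mem_singleton g)
  let _ := Φ.toAlgebra
  have hfinΦ : Module.Finite Γ(L, ⊤) Γ(C, U) := hΦ
  let Φ' : Γ(L, ⊤) →+* S := Φ.codRestrict S.toSubring hmem
  let _ := Φ'.toAlgebra
  have : IsScalarTower Γ(L, ⊤) S Γ(C, U) := IsScalarTower.of_algebraMap_eq (fun s => rfl)
  exact Module.Finite.of_restrictScalars_finite Γ(L, ⊤) S Γ(C, U)

/-- If `g` is transcendental over `k`, then `lineHom` is injective on global functions. -/
theorem lineHom_appTop_injective (U : C.Opens) (g : Γ(C, U)) [Algebra k Γ(C, U)]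
    (halg : algebraMap k Γ(C, U) = structureHom c U) (hg : Transcendental k g) :
    Function.Injective (lineHom c U g).appTop := by
  set L := 𝔸(PUnit.{u+1}; Spec (CommRingCat.of k)) with hL
  rw [injective_iff_map_eq_zero]
  intro s hs
  let Φ : Γ(L, ⊤) →+* Γ(C, U) := ((lineHom c U g).appTop ≫ U.topIso.hom).hom
  have hΦs : Φ s = 0 := by
    show U.topIso.hom ((lineHom c U g).appTop s) = 0
    rw [hs, map_zero]
  let E := MvPolynomial.eval₂Hom ((L ↘ Spec (CommRingCat.of k)).appTop).hom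
    (AffineSpace.coord (Spec (CommRingCat.of k)) (n := PUnit.{u+1}))
  have hE : Function.Surjective E := by
    have h1 := AffineSpace.isoOfIsAffine_hom_appTop (n := PUnit.{u+1})
      (S := Spec (CommRingCat.of k))
    have h2 : CommRingCat.ofHom E = (Scheme.ΓSpecIso _).inv ≫
        (AffineSpace.isoOfIsAffine PUnit.{u+1} (Spec (CommRingCat.of k))).hom.appTop := by
      rw [h1, Iso.inv_hom_id_assoc]
    have hi : IsIso ((AffineSpace.isoOfIsAffine PUnit.{u+1}
        (Spec (CommRingCat.of k))).hom.app ⊤) := inferInstance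
    have : IsIso (CommRingCat.ofHom E) := by
      rw [h2]; exact @IsIso.comp_isIso _ _ _ _ _ _ _ inferInstance hi
    exact (ConcreteCategory.bijective_of_isIso (CommRingCat.ofHom E)).surjective
  obtain ⟨p, rfl⟩ := hE s
  -- the structure map on `Γ(Spec k, ⊤)`
  let φ : Γ(Spec (CommRingCat.of k), ⊤) →+* k := (Scheme.ΓSpecIso (CommRingCat.of k)).hom.hom
  have hφ : Function.Injective φ :=
    (ConcreteCategory.bijective_of_isIso (Scheme.ΓSpecIso (CommRingCat.of k)).hom).injective
  have hσ : ∀ r, Φ (E (MvPolynomial.C r)) = algebraMap k Γ(C, U) (φ r) := by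
    intro r
    have h1 : Φ (E (MvPolynomial.C r)) = c.appLE ⊤ U le_top r := by
      simp only [E, MvPolynomial.coe_eval₂Hom, MvPolynomial.eval₂_C]
      exact topIso_lineHom_appTop_over c U g r
    rw [h1, halg]
    show c.appLE ⊤ U le_top r = c.appLE ⊤ U le_top
      ((Scheme.ΓSpecIso (CommRingCat.of k)).inv ((Scheme.ΓSpecIso (CommRingCat.of k)).hom r))
    rw [← CommRingCat.comp_apply (Scheme.ΓSpecIso (CommRingCat.of k)).hom, Iso.hom_inv_id,
      CommRingCat.id_apply]
  have hX : ∀ i, Φ (E (MvPolynomial.X i)) = g := by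
    intro i
    simp only [E, MvPolynomial.coe_eval₂Hom, MvPolynomial.eval₂_X]
    show U.topIso.hom ((lineHom c U g).appTop _) = g
    rw [lineHom_appTop_coord, ← CommRingCat.comp_apply, Iso.inv_hom_id, CommRingCat.id_apply]
  have key : ∀ q : MvPolynomial PUnit.{u+1} Γ(Spec (CommRingCat.of k), ⊤),
      Φ (E q) = MvPolynomial.aeval (fun _ : PUnit.{u+1} => g) (MvPolynomial.map φ q) := by
    intro q
    induction q using MvPolynomial.induction_on with
    | C r => rw [hσ, MvPolynomial.map_C, MvPolynomial.aeval_C]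
    | add p q hp hq => rw [map_add, map_add, hp, hq, map_add, map_add]
    | mul_X p i hp => rw [map_mul, map_mul, hp, hX, map_mul, map_mul, MvPolynomial.map_X,
        MvPolynomial.aeval_X]
  have hind : AlgebraicIndependent k (fun _ : PUnit.{u+1} => g) :=
    (algebraicIndependent_unique_type_iff (ι := PUnit.{u+1})).mpr hg
  have h0 : MvPolynomial.map φ p = 0 := by
    apply hind
    rw [map_zero, ← key p]
    exact hΦs
  have hp0 : p = 0 := MvPolynomial.map_injective φ hφ (h0.trans (map_zero _).symm)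
  rw [hp0, map_zero]

/-- **P4 (summary)**: the second chart `U₂` of a proper curve, given by the pole-free locus of
`g = 1/x`, is affine, and its coordinate ring is finite over `k[g]`. -/
theorem second_chart_finite [IsProper c] [IsReduced C] (U₁ U₂ : C.Opens) (x : Γ(C, U₁))
    (g : Γ(C, U₂)) [Algebra k Γ(C, U₂)] (halg : algebraMap k Γ(C, U₂) = structureHom c U₂)
    (hU₁ : IsAffineOpen U₁) (hcov : U₁ ⊔ U₂ = ⊤) (h₁₂ : U₁ ⊓ U₂ = C.basicOpen x)
    (hxg : C.presheaf.map (homOfLE inf_le_left).op x *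
      C.presheaf.map (homOfLE inf_le_right).op g = 1)
    (hfin : ∀ Z : Set C, IsClosed Z → Z ≠ Set.univ → Z.Finite)
    (hg : Transcendental k g) :
    IsAffineOpen U₂ ∧ Module.Finite (Algebra.adjoin k ({g} : Set Γ(C, U₂))) Γ(C, U₂) := by
  have h := isFinite_lineHom c U₁ U₂ x g hU₁ hcov h₁₂ hxg hfin
    (lineHom_appTop_injective c U₂ g halg hg)
  exact ⟨isAffineOpen_of_isFinite_lineHom c U₂ g h, finite_adjoin_of_isFinite_lineHom c U₂ g halg h⟩

end final

end Fermat.Agent.S25.PRES.H2090
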