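/-
S25 / PRES (Layer 0), leaf P6: the second chart is affine and finite over `k[g]`.

Statement of helper7345's sub-skeleton (unchanged).  Proof (helper2111): the graph/Zariski main
theorem argument is `H2090.second_chart_finite` (helper2090); here we supply its hypotheses:
proper closed subsets of the curve are finite (leaf P3), and `g` is transcendental over `k`
(otherwise `g` is a constant, and then `U = C`, which is impossible since `Γ(C, U)` is not a
field).
-/
import Fermat.Agent.S25.PRES.Defs
import Fermat.Agent.S25.PRES.AlgDed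
import Fermat.Agent.S25.PRES.AffAlg
import Fermat.Agent.S25.PRES.Closed
import Fermat.Agent.S25.PRES.LineFinite
import Fermat.Agent.S25.PRES.CurveData

set_option autoImplicit false
set_option linter.style.haveILetI false

universe u

namespace Fermat.Agent.S25.PRES

open CategoryTheory AlgebraicGeometry NeronModelInfra

variable {k : Type u} [Field k] [IsAlgClosed k] {C : Scheme.{u}}
  (c : C ⟶ Spec (CommRingCat.of k)) [IsProper c] [SmoothOfRelativeDimension 1 c] [IsIntegral C]

namespace Finite2111

include c in
/-- A nonempty affine open of the curve is not the whole curve. -/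
theorem ne_top_of_isAffineOpen (U : C.Opens) (hU : IsAffineOpen U)
    (hne : (U : Set C).Nonempty) : U ≠ ⊤ := by
  intro hUtop
  letI := algOpen c U
  haveI : Nonempty U := Set.nonempty_coe_sort.mpr hne
  haveI : IsDomain Γ(C, U) := inferInstance
  haveI : Algebra.FiniteType k Γ(C, U) := finiteType_algOpen c hU
  have hsm : RingHom.Locally (RingHom.IsStandardSmoothOfRelativeDimension 1)
      (algebraMap k Γ(C, U)) := locally_isStandardSmooth_structHom c hU
  obtain ⟨-, hnf⟩ := isDedekindDomain_of_locally_isStandardSmooth hsm
  apply hnf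
  have hsurj : Function.Surjective (algebraMap k Γ(C, U)) := by
    intro s
    obtain ⟨c0, hc0⟩ := P72111.exists_const_of_eq_top (c := c) U hUtop s
    exact ⟨c0, hc0.symm⟩
  haveI : Algebra.IsIntegral k Γ(C, U) := Algebra.isIntegral_of_surjective hsurj
  exact isField_of_isIntegral_of_isField' (Field.toIsField k)

/-- The function `g` on the second chart is transcendental over `k`. -/
theorem transcendental_second_chart (U : C.Opens) (hU : IsAffineOpen U)
    (hne : (U : Set C).Nonempty) (W : C.Opens) (g : Γ(C, W)) (hcover : U ⊔ W = ⊤)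
    (hgW : C.basicOpen g = U ⊓ W) :
    letI := algOpen c W
    Transcendental k g := by
  letI := algOpen c W
  have hUtop : U ≠ ⊤ := ne_top_of_isAffineOpen c U hU hne
  have hWne : (W : Set C).Nonempty := by
    by_contra hW
    apply hUtop
    have hW' : W = ⊥ := by
      rwa [← TopologicalSpace.Opens.not_nonempty_iff_eq_bot]
    rw [hW', sup_bot_eq] at hcover
    exact hcover
  haveI : Nonempty W := Set.nonempty_coe_sort.mpr hWne
  haveI : IsDomain Γ(C, W) := inferInstance
  have hinter : ((U ⊓ W : C.Opens) : Set C).Nonempty :=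
    nonempty_preirreducible_inter U.isOpen W.isOpen hne hWne
  intro halg'
  apply hUtop
  -- `g` is a constant
  haveI : Algebra.IsIntegral k (Algebra.adjoin k ({g} : Set Γ(C, W))) :=
    Algebra.IsIntegral.adjoin (by
      intro y hy
      rw [Set.mem_singleton_iff] at hy
      rw [hy]
      exact halg'.isIntegral)
  obtain ⟨a, ha⟩ := (IsAlgClosed.algebraMap_bijective_of_isIntegral (k := k)
    (K := Algebra.adjoin k ({g} : Set Γ(C, W)))).2
      ⟨g, Algebra.subset_adjoin (Set.mem_singleton g)⟩
  have hag : algebraMap k Γ(C, W) a = g := congrArg Subtype.val ha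
  have hg0 : g ≠ 0 := by
    intro h0
    rw [h0, Scheme.basicOpen_zero] at hgW
    rw [← hgW] at hinter
    simp at hinter
  have ha0 : a ≠ 0 := by
    intro h0
    apply hg0
    rw [← hag, h0, map_zero]
  have hunit : IsUnit g := by
    rw [← hag]
    exact (IsUnit.mk0 a ha0).map _
  have hWU : W ≤ U := by
    have h := Scheme.basicOpen_of_isUnit C hunit
    rw [hgW] at h
    exact inf_eq_right.mp h
  rw [← hcover]
  exact (sup_eq_left.mpr hWU).symm

end Finite2111

set_option linter.unusedVariables false in
theorem isAffineOpen_and_finite_second_chart (U : C.Opens) (hU : IsAffineOpen U)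
    (hne : (U : Set C).Nonempty) (x : Γ(C, U))
    (hx : letI := algOpen c U
      Module.Finite (Algebra.adjoin k ({x} : Set Γ(C, U))) Γ(C, U))
    (W : C.Opens) (g : Γ(C, W)) (hcover : U ⊔ W = ⊤) (hxW : C.basicOpen x = U ⊓ W)
    (hgW : C.basicOpen g = U ⊓ W)
    (hxg : res (inf_le_left : U ⊓ W ≤ U) x * res (inf_le_right : U ⊓ W ≤ W) g = 1) :
    IsAffineOpen W ∧
      (letI := algOpen c W
       Module.Finite (Algebra.adjoin k ({g} : Set Γ(C, W))) Γ(C, W)) := by
  letI := algOpen c W
  have hg : Transcendental k g := Finite2111.transcendental_second_chart c U hU hne W g hcover hgW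
  have hfin : ∀ Z : Set C, IsClosed Z → Z ≠ Set.univ → Z.Finite := by
    intro Z hZ hZne
    have hne' : ((⟨Zᶜ, hZ.isOpen_compl⟩ : C.Opens) : Set C).Nonempty := by
      rw [TopologicalSpace.Opens.coe_mk]
      exact Set.nonempty_compl.mpr hZne
    have h := finite_compl_of_nonempty c ⟨Zᶜ, hZ.isOpen_compl⟩ hne'
    rwa [TopologicalSpace.Opens.coe_mk, compl_compl] at h
  exact H2090.second_chart_finite c U W x g rfl hU hcover hxW.symm hxg hfin hg

end Fermat.Agent.S25.PRES
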