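import Mathlib

/-!
# S25, Layer 0 (SC0 / C2): the chart at infinity of a finite function (helper2851)

Let `C` be an integral separated scheme, `U` an affine open and `x ∈ Γ(C, U)` such that `Γ(C, U)`
is integral over the subring generated by `x` and the (restrictions of) global sections.  Assume
that the local rings of `C` at the points outside `U` are valuation rings.  Then

* `x` has a pole at every point `P ∉ U` (`PoleChart.germ_not_mem_range`);
* there are an open `V` and `g ∈ Γ(C, V)` with `U ⊔ V = ⊤`, `D(x) = U ⊓ V = D(g)` and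
  `x * g = 1` on `U ⊓ V` (`PoleChart.exists_inverse_chart`).
-/

set_option autoImplicit false
set_option linter.style.haveILetI false

universe u

open CategoryTheory AlgebraicGeometry TopologicalSpace Opposite

namespace Fermat.Agent.S25.PRES.PoleChart

noncomputable section

variable {C : Scheme.{u}} [IsIntegral C]

instance nonempty_top : Nonempty ↥(⊤ : C.Opens).toScheme := ⟨⟨genericPoint C, trivial⟩⟩

/-- The subring of `Γ(C, U)` generated by `x` and the restrictions of global sections. -/
def coeffRing (U : C.Opens) (x : Γ(C, U)) : Subring Γ(C, U) :=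
  Subring.closure (insert x (Set.range (C.presheaf.map (homOfLE (le_top : U ≤ ⊤)).op).hom))

/-- The image of the local ring at `P` in the function field. -/
def stalkRange (P : C) : Subring C.functionField :=
  (algebraMap (C.presheaf.stalk P) C.functionField).range

lemma germToFunctionField_res (U : C.Opens) [Nonempty U] (s : Γ(C, ⊤)) :
    C.germToFunctionField U (C.presheaf.map (homOfLE (le_top : U ≤ ⊤)).op s) =
      C.germToFunctionField ⊤ s := by
  exact C.presheaf.germ_res_apply (homOfLE (le_top : U ≤ ⊤)) _ _ s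

lemma global_mem_stalkRange (P : C) (s : Γ(C, ⊤)) :
    C.germToFunctionField ⊤ s ∈ stalkRange P :=
  ⟨C.presheaf.germ ⊤ P trivial s,
    Scheme.algebraMap_germ_eq_germToFunctionField C (U := ⊤) (x := P) trivial s⟩

lemma coeffRing_le (U : C.Opens) [Nonempty U] (x : Γ(C, U)) (P : C)
    (hx : C.germToFunctionField U x ∈ stalkRange P) :
    coeffRing U x ≤ (stalkRange P).comap (C.germToFunctionField U).hom := by
  refine Subring.closure_le.mpr ?_
  rintro a (rfl | ⟨s, rfl⟩)
  · exact hx
  · change C.germToFunctionField U (C.presheaf.map (homOfLE (le_top : U ≤ ⊤)).op s) ∈ stalkRange P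
    rw [germToFunctionField_res]
    exact global_mem_stalkRange P s

/-- If the germ of `x` lies in the (integrally closed) local ring at `P` and `Γ(C, U)` is integral
over `coeffRing U x`, then all of `Γ(C, U)` lies in the local ring at `P`. -/
lemma germ_mem_stalkRange_of_integral (U : C.Opens) [Nonempty U] (x : Γ(C, U))
    (hint : ∀ a : Γ(C, U), IsIntegral (coeffRing U x) a) (P : C)
    [IsIntegrallyClosed (C.presheaf.stalk P)]
    (hx : C.germToFunctionField U x ∈ stalkRange P) (a : Γ(C, U)) :
    C.germToFunctionField U a ∈ stalkRange P := by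
  set ψ : Γ(C, U) →+* C.functionField := (C.germToFunctionField U).hom with hψ
  have hle := coeffRing_le U x P hx
  have hinj : Function.Injective (algebraMap (C.presheaf.stalk P) C.functionField) :=
    IsFractionRing.injective _ _
  let e : C.presheaf.stalk P ≃+* stalkRange P :=
    RingEquiv.ofBijective (algebraMap (C.presheaf.stalk P) C.functionField).rangeRestrict
      ⟨fun a b h => hinj (congrArg Subtype.val h), RingHom.rangeRestrict_surjective _⟩
  let φ : coeffRing U x →+* C.presheaf.stalk P :=
    e.symm.toRingHom.comp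
      ((ψ.comp (coeffRing U x).subtype).codRestrict (stalkRange P) (fun s => hle s.2))
  have hφ : (algebraMap (C.presheaf.stalk P) C.functionField).comp φ =
      ψ.comp (algebraMap (coeffRing U x) Γ(C, U)) := by
    ext s
    have h1 : algebraMap (C.presheaf.stalk P) C.functionField (e.symm
        ((ψ.comp (coeffRing U x).subtype).codRestrict (stalkRange P) (fun s => hle s.2) s)) =
        ((e (e.symm ((ψ.comp (coeffRing U x).subtype).codRestrict (stalkRange P)
          (fun s => hle s.2) s)) : stalkRange P) : C.functionField) := rfl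
    simp only [RingHom.comp_apply, φ, RingEquiv.toRingHom_eq_coe, RingHom.coe_coe]
    rw [h1, RingEquiv.apply_symm_apply]
    rfl
  have hI : IsIntegral (C.presheaf.stalk P) (ψ a) := IsIntegral.map_of_comp_eq φ ψ hφ (hint a)
  exact IsIntegrallyClosed.isIntegral_iff.mp hI

/-- A ring homomorphism `Γ(C, U) → 𝒪_{C,P}` compatible with the maps to the function field. -/
lemma exists_ringHom_to_stalk (U : C.Opens) [Nonempty U] (x : Γ(C, U))
    (hint : ∀ a : Γ(C, U), IsIntegral (coeffRing U x) a) (P : C)
    [IsIntegrallyClosed (C.presheaf.stalk P)]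
    (hx : C.germToFunctionField U x ∈ stalkRange P) :
    ∃ θ : Γ(C, U) →+* C.presheaf.stalk P,
      (algebraMap (C.presheaf.stalk P) C.functionField).comp θ = (C.germToFunctionField U).hom := by
  have hall := germ_mem_stalkRange_of_integral U x hint P hx
  have hinj : Function.Injective (algebraMap (C.presheaf.stalk P) C.functionField) :=
    IsFractionRing.injective _ _
  let e : C.presheaf.stalk P ≃+* stalkRange P :=
    RingEquiv.ofBijective (algebraMap (C.presheaf.stalk P) C.functionField).rangeRestrict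
      ⟨fun a b h => hinj (congrArg Subtype.val h), RingHom.rangeRestrict_surjective _⟩
  refine ⟨e.symm.toRingHom.comp
    ((C.germToFunctionField U).hom.codRestrict (stalkRange P) hall), ?_⟩
  ext a
  have h1 : algebraMap (C.presheaf.stalk P) C.functionField (e.symm
      ((C.germToFunctionField U).hom.codRestrict (stalkRange P) hall a)) =
      ((e (e.symm ((C.germToFunctionField U).hom.codRestrict (stalkRange P) hall a)) :
        stalkRange P) : C.functionField) := rfl
  simp only [RingHom.comp_apply, RingEquiv.toRingHom_eq_coe, RingHom.coe_coe]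
  rw [h1, RingEquiv.apply_symm_apply]
  rfl

lemma genericPoint_mem (U : C.Opens) [h : Nonempty U] : genericPoint C ∈ U :=
  ((genericPoint_spec C).mem_open_set_iff U.isOpen).mpr (by simpa using h)

/-- **Pole lemma.** On an integral separated scheme, let `U` be an affine open such that
`Γ(C, U)` is integral over the subring generated by `x` and the global sections.  Then `x` does
not lie in the local ring of any point `P ∉ U` whose local ring is integrally closed. -/
theorem germ_not_mem_stalkRange [C.IsSeparated] (U : C.Opens) (hU : IsAffineOpen U) [Nonempty U]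
    (x : Γ(C, U)) (hint : ∀ a : Γ(C, U), IsIntegral (coeffRing U x) a) (P : C) (hP : P ∉ U)
    [IsIntegrallyClosed (C.presheaf.stalk P)] :
    C.germToFunctionField U x ∉ stalkRange P := by
  intro hx
  obtain ⟨θ, hθ⟩ := exists_ringHom_to_stalk U x hint P hx
  have hgen : genericPoint C ∈ U := genericPoint_mem U
  let f : Spec (C.presheaf.stalk P) ⟶ C := C.fromSpecStalk P
  let g : Spec (C.presheaf.stalk P) ⟶ C := Spec.map (CommRingCat.ofHom θ) ≫ hU.fromSpec
  let ι : Spec C.functionField ⟶ Spec (C.presheaf.stalk P) :=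
    Spec.map (CommRingCat.ofHom (algebraMap (C.presheaf.stalk P) C.functionField))
  have h1 : ι ≫ f = C.fromSpecStalk (genericPoint C) :=
    Scheme.SpecMap_stalkSpecializes_fromSpecStalk ((genericPoint_spec C).specializes trivial)
  have h2 : ι ≫ g = C.fromSpecStalk (genericPoint C) := by
    rw [← hU.fromSpecStalk_eq_fromSpecStalk hgen]
    simp only [ι, g, IsAffineOpen.fromSpecStalk]
    rw [← Category.assoc, ← Spec.map_comp]
    congr 2
    ext a
    exact RingHom.congr_fun hθ a
  haveI : IsDominant ι := by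
    constructor
    have hinj : Function.Injective (algebraMap (C.presheaf.stalk P) C.functionField) :=
      IsFractionRing.injective _ _
    have := (PrimeSpectrum.denseRange_comap_iff_ker_le_nilRadical
      (algebraMap (C.presheaf.stalk P) C.functionField)).mpr (by
        rw [(RingHom.injective_iff_ker_eq_bot _).mp hinj]; exact bot_le)
    exact this
  have hfg : f = g := ext_of_isDominant ι (h1.trans h2.symm)
  have hcp : f (IsLocalRing.closedPoint (C.presheaf.stalk P)) = P :=
    Scheme.fromSpecStalk_closedPoint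
  have hmem : g (IsLocalRing.closedPoint (C.presheaf.stalk P)) ∈ (U : Set C) := by
    rw [← hU.range_fromSpec]
    exact ⟨Spec.map (CommRingCat.ofHom θ) (IsLocalRing.closedPoint (C.presheaf.stalk P)), rfl⟩
  rw [← hfg, hcp] at hmem
  exact hP hmem

/-- `s ∈ Γ(C, V)` represents the element `y` of the function field (at every point of `V`). -/
def Represents (V : C.Opens) (s : Γ(C, V)) (y : C.functionField) : Prop :=
  ∀ (Q : C) (hQ : Q ∈ V),
    algebraMap (C.presheaf.stalk Q) C.functionField (C.presheaf.germ V Q hQ s) = y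

lemma Represents.ext {W : C.Opens} {a b : Γ(C, W)} {y : C.functionField}
    (ha : Represents W a y) (hb : Represents W b y) : a = b := by
  refine TopCat.Presheaf.section_ext C.sheaf W a b (fun Q hQ => ?_)
  exact IsFractionRing.injective (C.presheaf.stalk Q) C.functionField
    ((ha Q hQ).trans (hb Q hQ).symm)

lemma Represents.res {V W : C.Opens} {s : Γ(C, V)} {y : C.functionField}
    (hs : Represents V s y) (i : W ⟶ V) : Represents W (C.presheaf.map i.op s) y := by
  intro Q hQ
  rw [C.presheaf.germ_res_apply i Q hQ s]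
  exact hs Q (i.le hQ)

lemma represents_of_germ {V : C.Opens} {s : Γ(C, V)} {y : C.functionField} (P : C) (hP : P ∈ V)
    (h : algebraMap (C.presheaf.stalk P) C.functionField (C.presheaf.germ V P hP s) = y) :
    Represents V s y := by
  haveI : Nonempty ↥V.toScheme := ⟨⟨P, hP⟩⟩
  intro Q hQ
  rw [Scheme.algebraMap_germ_eq_germToFunctionField C hQ s,
    ← Scheme.algebraMap_germ_eq_germToFunctionField C hP s, h]

lemma represents_germToFunctionField (U : C.Opens) [Nonempty U] (x : Γ(C, U)) :
    Represents U x (C.germToFunctionField U x) :=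
  fun _ hQ => Scheme.algebraMap_germ_eq_germToFunctionField C hQ x

lemma Represents.mul {W : C.Opens} {a b : Γ(C, W)} {y z : C.functionField}
    (ha : Represents W a y) (hb : Represents W b z) : Represents W (a * b) (y * z) := by
  intro Q hQ
  rw [map_mul, map_mul, ha Q hQ, hb Q hQ]

lemma represents_one (W : C.Opens) : Represents W (1 : Γ(C, W)) 1 := by
  intro Q hQ
  rw [map_one, map_one]

/-- Near a point `P ∉ U` whose local ring is a valuation ring, `1/x` is a regular function. -/
lemma exists_local_inverse [C.IsSeparated] (U : C.Opens) (hU : IsAffineOpen U) [Nonempty U]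
    (x : Γ(C, U)) (hint : ∀ a : Γ(C, U), IsIntegral (coeffRing U x) a) (P : C) (hP : P ∉ U)
    [ValuationRing (C.presheaf.stalk P)] :
    ∃ (V : C.Opens) (s : Γ(C, V)), P ∈ V ∧ Represents V s (C.germToFunctionField U x)⁻¹ := by
  have hpole := germ_not_mem_stalkRange U hU x hint P hP
  rcases ValuationRing.isInteger_or_isInteger (C.presheaf.stalk P)
    (C.germToFunctionField U x) with h | h
  · obtain ⟨t, ht⟩ := h
    exact absurd ⟨t, ht⟩ hpole
  · obtain ⟨t, ht⟩ := h
    obtain ⟨V, hPV, s, hs⟩ := C.presheaf.exists_germ_eq t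
    exact ⟨V, s, hPV, represents_of_germ P hPV (by rw [hs]; exact ht)⟩

/-- **The chart at infinity.** Let `C` be an integral separated scheme, `U` an affine open and
`x ∈ Γ(C, U)` such that `Γ(C, U)` is integral over the subring generated by `x` and the global
sections, and assume that the local rings at the points outside `U` are valuation rings.  Then
`1/x` is a regular function `g` on an open `V` with `U ⊔ V = ⊤` and `D(x) = U ⊓ V = D(g)`. -/
theorem exists_inverse_chart [C.IsSeparated] (U : C.Opens) (hU : IsAffineOpen U) [Nonempty U]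
    (x : Γ(C, U)) (hint : ∀ a : Γ(C, U), IsIntegral (coeffRing U x) a)
    (hval : ∀ P : C, P ∉ U → ValuationRing (C.presheaf.stalk P)) :
    ∃ (V : C.Opens) (g : Γ(C, V)), U ⊔ V = ⊤ ∧ C.basicOpen x = U ⊓ V ∧ C.basicOpen g = U ⊓ V ∧
      C.presheaf.map (homOfLE (inf_le_left : U ⊓ V ≤ U)).op x *
        C.presheaf.map (homOfLE (inf_le_right : U ⊓ V ≤ V)).op g = 1 := by
  classical
  set xK : C.functionField := C.germToFunctionField U x with hxK
  have hxrep : Represents U x xK := represents_germToFunctionField U x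
  -- local inverses at the points outside `U`
  have hloc : ∀ P : {P : C // P ∉ U}, ∃ (V : C.Opens) (s : Γ(C, V)),
      P.1 ∈ V ∧ Represents V s xK⁻¹ := fun P => by
    haveI := hval P.1 P.2
    exact exists_local_inverse U hU x hint P.1 P.2
  choose VP sP hPV hsP using hloc
  -- the inverse of `x` on `D(x)`
  obtain ⟨u, hu⟩ : IsUnit (C.presheaf.map (homOfLE (C.basicOpen_le x)).op x) :=
    RingedSpace.isUnit_res_basicOpen _ x
  have hurep : Represents (C.basicOpen x) (↑u : Γ(C, C.basicOpen x)) xK := by
    rw [hu]; exact hxrep.res _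
  have hmul0 : ∀ (Q : C) (hQ : Q ∈ C.basicOpen x),
      xK * algebraMap (C.presheaf.stalk Q) C.functionField
        (C.presheaf.germ (C.basicOpen x) Q hQ (↑u⁻¹ : Γ(C, C.basicOpen x))) = 1 := by
    intro Q hQ
    have h3 : (↑u : Γ(C, C.basicOpen x)) * ↑u⁻¹ = 1 := u.mul_inv
    have h4 := congrArg (fun t => algebraMap (C.presheaf.stalk Q) C.functionField
      (C.presheaf.germ (C.basicOpen x) Q hQ t)) h3
    simp only [map_mul, map_one] at h4
    rw [hurep Q hQ] at h4
    exact h4
  have hrep0 : Represents (C.basicOpen x) (↑u⁻¹ : Γ(C, C.basicOpen x)) xK⁻¹ :=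
    fun Q hQ => eq_inv_of_mul_eq_one_right (hmul0 Q hQ)
  -- the family to be glued
  let data : Option {P : C // P ∉ U} →
      {p : Σ V : C.Opens, Γ(C, V) // Represents p.1 p.2 xK⁻¹} := fun i =>
    match i with
    | none => ⟨⟨C.basicOpen x, ↑u⁻¹⟩, hrep0⟩
    | some P => ⟨⟨VP P, sP P⟩, hsP P⟩
  let 𝒱 : Option {P : C // P ∉ U} → C.Opens := fun i => (data i).1.1
  let sf : ∀ i, Γ(C, 𝒱 i) := fun i => (data i).1.2
  have hsf : ∀ i, Represents (𝒱 i) (sf i) xK⁻¹ := fun i => (data i).2
  have hcompat : TopCat.Presheaf.IsCompatible C.presheaf 𝒱 sf :=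
    fun i j => ((hsf i).res _).ext ((hsf j).res _)
  obtain ⟨g', hg', -⟩ := C.sheaf.existsUnique_gluing 𝒱 sf hcompat
  obtain ⟨g, hg⟩ : ∃ g : Γ(C, iSup 𝒱), ∀ i, C.presheaf.map (Opens.leSupr 𝒱 i).op g = sf i :=
    ⟨g', hg'⟩
  have hgrep : Represents (iSup 𝒱) g xK⁻¹ := by
    intro Q hQ
    obtain ⟨i, hi⟩ := Opens.mem_iSup.mp hQ
    have h1 := hsf i Q hi
    rw [← hg i] at h1
    rw [← h1]
    congr 1
    exact (C.presheaf.germ_res_apply (Opens.leSupr 𝒱 i) Q hi g).symm
  -- `x ≠ 0` as soon as `V` has a point
  have hx0 : ∀ Q : C, Q ∈ iSup 𝒱 → xK ≠ 0 := by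
    intro Q hQ
    obtain ⟨i, hi⟩ := Opens.mem_iSup.mp hQ
    rcases i with _ | P
    · exact left_ne_zero_of_mul_eq_one (hmul0 Q hi)
    · haveI := hval P.1 P.2
      intro h0
      exact germ_not_mem_stalkRange U hU x hint P.1 P.2 ⟨0, by rw [map_zero]; exact h0.symm⟩
  have hgerm : ∀ (Q : C) (hQU : Q ∈ U) (hQV : Q ∈ iSup 𝒱),
      C.presheaf.germ U Q hQU x * C.presheaf.germ (iSup 𝒱) Q hQV g = 1 := by
    intro Q hQU hQV
    apply IsFractionRing.injective (C.presheaf.stalk Q) C.functionField
    rw [map_mul, map_one, hxrep Q hQU, hgrep Q hQV, mul_inv_cancel₀ (hx0 Q hQV)]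
  refine ⟨iSup 𝒱, g, ?_, ?_, ?_, ?_⟩
  · rw [eq_top_iff]
    intro Q _
    by_cases hQ : Q ∈ U
    · exact Opens.mem_sup.mpr (Or.inl hQ)
    · exact Opens.mem_sup.mpr (Or.inr (Opens.mem_iSup.mpr ⟨some ⟨Q, hQ⟩, hPV ⟨Q, hQ⟩⟩))
  · apply le_antisymm
    · exact le_inf (C.basicOpen_le x) (le_iSup 𝒱 none)
    · rintro Q ⟨hQU, hQV⟩
      exact (C.mem_basicOpen x Q hQU).mpr (IsUnit.of_mul_eq_one _ (hgerm Q hQU hQV))
  · apply le_antisymm
    · intro Q hQ
      have hQV : Q ∈ iSup 𝒱 := C.basicOpen_le g hQ
      refine ⟨?_, hQV⟩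
      by_contra hQU
      haveI := hval Q hQU
      obtain ⟨t, ht⟩ := (C.mem_basicOpen g Q hQV).mp hQ
      apply germ_not_mem_stalkRange U hU x hint Q hQU
      refine ⟨(↑t⁻¹ : C.presheaf.stalk Q), ?_⟩
      have h1 : algebraMap (C.presheaf.stalk Q) C.functionField (↑t : C.presheaf.stalk Q) *
          algebraMap (C.presheaf.stalk Q) C.functionField (↑t⁻¹ : C.presheaf.stalk Q) = 1 := by
        rw [← map_mul, t.mul_inv, map_one]
      rw [ht, hgrep Q hQV] at h1
      have h2 := eq_inv_of_mul_eq_one_right h1
      rw [inv_inv] at h2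
      exact h2
    · rintro Q ⟨hQU, hQV⟩
      refine (C.mem_basicOpen g Q hQV).mpr (IsUnit.of_mul_eq_one (C.presheaf.germ U Q hQU x) ?_)
      rw [mul_comm]
      exact hgerm Q hQU hQV
  · refine TopCat.Presheaf.section_ext C.sheaf (U ⊓ iSup 𝒱) _ _ (fun Q hQ => ?_)
    change C.presheaf.germ (U ⊓ iSup 𝒱) Q hQ
        (C.presheaf.map (homOfLE (inf_le_left : U ⊓ iSup 𝒱 ≤ U)).op x *
          C.presheaf.map (homOfLE (inf_le_right : U ⊓ iSup 𝒱 ≤ iSup 𝒱)).op g) =
      C.presheaf.germ (U ⊓ iSup 𝒱) Q hQ 1
    rw [map_mul, map_one,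
      C.presheaf.germ_res_apply (homOfLE (inf_le_left : U ⊓ iSup 𝒱 ≤ U)) Q hQ x,
      C.presheaf.germ_res_apply (homOfLE (inf_le_right : U ⊓ iSup 𝒱 ≤ iSup 𝒱)) Q hQ g]
    exact hgerm Q hQ.1 hQ.2

end

end Fermat.Agent.S25.PRES.PoleChart
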