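/-
S25 / PRES (Layer 0), leaf P5: the second chart.  `W := C ∖ V_U(x)` is open, and `1/x` extends to
a section `g` of `W`; `U ∩ W = D(x) = D(g)`.

Statement of helper7345's sub-skeleton (unchanged).  Proof (helper2111): instantiate the abstract
chart-at-infinity theorem `PoleChart.exists_inverse_chart` (helper2851) with
* stalks of `C` are valuation rings (affine rings are Dedekind by leaf P2a; pattern of helper1465),
* `Γ(C, U)` is integral over the subring generated by `x` and the constants.
-/
import Fermat.Agent.S25.PRES.Defs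
import Fermat.Agent.S25.PRES.AlgDed
import Fermat.Agent.S25.PRES.AffAlg
import Fermat.Agent.S25.PRES.PoleChart

set_option autoImplicit false
set_option linter.style.haveILetI false

universe u

namespace Fermat.Agent.S25.PRES

open CategoryTheory CategoryTheory.Limits AlgebraicGeometry NeronModelInfra

namespace Glue2111

/-- A localisation of a Dedekind domain at a prime ideal is a valuation ring. -/
theorem valuationRing_of_isLocalization_atPrime {A : Type*} [CommRing A] [IsDomain A]
    [IsDedekindDomain A] (P : Ideal A) [P.IsPrime] (B : Type*) [CommRing B] [IsDomain B]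
    [Algebra A B] [IsLocalization.AtPrime B P] : ValuationRing B := by
  by_cases hP : P = ⊥
  · have hfr : IsFractionRing A B := by
      have h : P.primeCompl = nonZeroDivisors A := by
        subst hP
        ext a
        simp [Ideal.primeCompl, mem_nonZeroDivisors_iff_ne_zero]
      have := ‹IsLocalization.AtPrime B P›
      unfold IsLocalization.AtPrime at this
      rw [h] at this
      exact this
    letI := IsFractionRing.toField A (K := B)
    exact ValuationRing.of_field B
  · haveI : IsDiscreteValuationRing B :=
      IsLocalization.AtPrime.isDiscreteValuationRing_of_dedekind_domain A hP B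
    infer_instance

variable {k : Type u} [Field k] [IsAlgClosed k] {C : Scheme.{u}}
  (c : C ⟶ Spec (CommRingCat.of k)) [SmoothOfRelativeDimension 1 c] [IsIntegral C]

/-- Sections over a nonempty affine open form a Dedekind domain which is not a field. -/
theorem isDedekindDomain_sections [LocallyOfFiniteType c] {V : C.Opens} (hV : IsAffineOpen V)
    [Nonempty V] : IsDedekindDomain Γ(C, V) ∧ ¬ IsField Γ(C, V) := by
  letI := algOpen c V
  haveI : IsDomain Γ(C, V) := inferInstance
  haveI : Algebra.FiniteType k Γ(C, V) := finiteType_algOpen c hV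
  have hsm : RingHom.Locally (RingHom.IsStandardSmoothOfRelativeDimension 1)
      (algebraMap k Γ(C, V)) := locally_isStandardSmooth_structHom c hV
  exact isDedekindDomain_of_locally_isStandardSmooth hsm

/-- Every stalk of the curve is a valuation ring. -/
theorem valuationRing_stalk [LocallyOfFiniteType c] (P : C) :
    ValuationRing (C.presheaf.stalk P) := by
  obtain ⟨_, ⟨V, hV, rfl⟩, hPV, -⟩ :=
    (C.isBasis_affineOpens).exists_subset_of_mem_open (Set.mem_univ P) isOpen_univ
  haveI : Nonempty V := ⟨⟨P, hPV⟩⟩
  haveI := (isDedekindDomain_sections c hV).1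
  letI : Algebra Γ(C, V) (C.presheaf.stalk P) :=
    TopCat.Presheaf.algebra_section_stalk C.presheaf ⟨P, hPV⟩
  haveI : IsLocalization.AtPrime (C.presheaf.stalk P) (hV.primeIdealOf ⟨P, hPV⟩).asIdeal :=
    hV.isLocalization_stalk ⟨P, hPV⟩
  exact valuationRing_of_isLocalization_atPrime (hV.primeIdealOf ⟨P, hPV⟩).asIdeal
    (C.presheaf.stalk P)

omit [IsAlgClosed k] [SmoothOfRelativeDimension 1 c] in
/-- `k[x] ⊆` the subring generated by `x` and the global sections. -/
theorem adjoin_le_coeffRing (U : C.Opens) (x : Γ(C, U)) :
    letI := algOpen c U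
    ∀ s ∈ Algebra.adjoin k ({x} : Set Γ(C, U)), s ∈ PoleChart.coeffRing U x := by
  letI := algOpen c U
  intro s hs
  induction hs using Algebra.adjoin_induction with
  | mem y hy =>
    rw [Set.mem_singleton_iff] at hy
    exact Subring.subset_closure (hy ▸ Set.mem_insert _ _)
  | algebraMap r =>
    refine Subring.subset_closure (Set.mem_insert_of_mem _ ⟨structHom c ⊤ r, ?_⟩)
    exact res_structHom_apply c (le_top : U ≤ ⊤) r
  | add y z _ _ hy hz => exact add_mem hy hz
  | mul y z _ _ hy hz => exact mul_mem hy hz

omit [IsAlgClosed k] [SmoothOfRelativeDimension 1 c] in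
/-- Integrality over `k[x]` implies integrality over the bigger subring. -/
theorem isIntegral_coeffRing (U : C.Opens) (x : Γ(C, U))
    (hx : letI := algOpen c U
      Module.Finite (Algebra.adjoin k ({x} : Set Γ(C, U))) Γ(C, U)) (a : Γ(C, U)) :
    IsIntegral (PoleChart.coeffRing U x) a := by
  letI := algOpen c U
  haveI := hx
  obtain ⟨p, hp, hpa⟩ := Algebra.IsIntegral.isIntegral (R := Algebra.adjoin k ({x} : Set Γ(C, U))) a
  let ι : Algebra.adjoin k ({x} : Set Γ(C, U)) →+* PoleChart.coeffRing U x :=
    { toFun := fun s => ⟨s.1, adjoin_le_coeffRing c U x s.1 s.2⟩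
      map_one' := rfl
      map_mul' := fun _ _ => rfl
      map_zero' := rfl
      map_add' := fun _ _ => rfl }
  refine ⟨p.map ι, hp.map ι, ?_⟩
  rw [Polynomial.eval₂_map]
  exact hpa

end Glue2111

variable {k : Type u} [Field k] [IsAlgClosed k] {C : Scheme.{u}}
  (c : C ⟶ Spec (CommRingCat.of k)) [IsProper c] [SmoothOfRelativeDimension 1 c] [IsIntegral C]

theorem exists_second_chart (U : C.Opens) (hU : IsAffineOpen U) (hne : (U : Set C).Nonempty)
    (x : Γ(C, U))
    (hx : letI := algOpen c U
      Module.Finite (Algebra.adjoin k ({x} : Set Γ(C, U))) Γ(C, U)) :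
    ∃ (W : C.Opens) (g : Γ(C, W)), U ⊔ W = ⊤ ∧ C.basicOpen x = U ⊓ W ∧
      C.basicOpen g = U ⊓ W ∧
      res (inf_le_left : U ⊓ W ≤ U) x * res (inf_le_right : U ⊓ W ≤ W) g = 1 := by
  haveI : Nonempty U := hne.to_subtype
  haveI : C.IsSeparated := ⟨by rw [← terminal.comp_from c]; infer_instance⟩
  exact PoleChart.exists_inverse_chart U hU x (Glue2111.isIntegral_coeffRing c U x hx)
    (fun P _ => Glue2111.valuationRing_stalk c P)

end Fermat.Agent.S25.PRES
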