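/-
S25 / SC0: existence of a two-chart presentation (assembly of the leaves P2-P6).
-/
import Fermat.Agent.S25.PRES.Defs
import Fermat.Agent.S25.PRES.AlgDed
import Fermat.Agent.S25.PRES.AlgNoether
import Fermat.Agent.S25.PRES.AffAlg
import Fermat.Agent.S25.PRES.Glue
import Fermat.Agent.S25.PRES.Finite

set_option autoImplicit false
set_option linter.style.haveILetI false

universe u

namespace Fermat.Agent.S25.PRES

open CategoryTheory AlgebraicGeometry NeronModelInfra

variable {k : Type u} [Field k] [IsAlgClosed k] {C : Scheme.{u}}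
  (c : C ⟶ Spec (CommRingCat.of k)) [IsProper c] [SmoothOfRelativeDimension 1 c] [IsIntegral C]

theorem nonempty_presentation (ε : SchemeHomOver (𝟙 (Spec (CommRingCat.of k))) c) :
    Nonempty (Presentation c ε) := by
  classical
  have hsub : ∀ p q : Spec (CommRingCat.of k), p = q := by
    intro p q
    have : Subsingleton (PrimeSpectrum k) := inferInstance
    exact Subsingleton.elim (α := PrimeSpectrum k) p q
  obtain ⟨p₁⟩ : Nonempty (Spec (CommRingCat.of k)) := inferInstance
  obtain ⟨_, ⟨U, hU, rfl⟩, hp₀, -⟩ :=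
    (C.isBasis_affineOpens).exists_subset_of_mem_open
      (Set.mem_univ (ε.1.base p₁)) isOpen_univ
  have hmem : ∀ p, ε.1.base p ∈ U := fun p => by rw [hsub p p₁]; exact hp₀
  letI := algOpen c U
  haveI : Nonempty U := ⟨⟨_, hp₀⟩⟩
  haveI : IsDomain Γ(C, U) := inferInstance
  haveI : Algebra.FiniteType k Γ(C, U) := finiteType_algOpen c hU
  have hsm : RingHom.Locally (RingHom.IsStandardSmoothOfRelativeDimension 1)
      (algebraMap k Γ(C, U)) := locally_isStandardSmooth_structHom c hU
  obtain ⟨hD, hnf⟩ := isDedekindDomain_of_locally_isStandardSmooth hsm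
  obtain ⟨x, hx⟩ := exists_finite_adjoin_singleton (k := k) hnf
  obtain ⟨W, g, hcov, hxW, hgW, hxg⟩ := exists_second_chart c U hU ⟨_, hp₀⟩ x hx
  obtain ⟨hW, hfin⟩ :=
    isAffineOpen_and_finite_second_chart c U hU ⟨_, hp₀⟩ x hx W g hcov hxW hgW hxg
  exact ⟨{ W₁ := U, W₂ := W, affine₁ := hU, affine₂ := hW, cover := hcov, f := x, g := g,
           basicOpen_f := hxW, basicOpen_g := hgW, f_mul_g := hxg, finite₁ := hx,
           finite₂ := hfin, ε_mem := hmem }⟩

end Fermat.Agent.S25.PRES
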